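import Fermat.Agent.Modular.Ihara.Main
import Fermat.Agent.Modular.HeckeReps

/-!
# Homomorphisms vanishing on `Γ(M)` are killed by `T l - (l + 1)` for `l ≡ 1 (mod M)`
-/

set_option autoImplicit false
set_option linter.unusedSimpArgs false

namespace FermatLib.Modular.Ihara

open scoped MatrixGroups
open CongruenceSubgroup

variable {N M : ℕ} {R : Type*} [Semiring R] {A : Type*} [AddCommGroup A] [Module R A]

/-- A homomorphism on `Γ₀(N)` vanishing on `Γ(M)` is an eigenvector of `T l`, with eigenvalue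
`l + 1`, for every prime `l ≡ 1 (mod M)`. -/
theorem heckeHomOp_eq_of_vanishing (l : Nat.Primes) (hlN : ¬ (l : ℕ) ∣ N)
    (hl : ((l : ℕ) : ZMod M) = 1) {φ : Additive (Gamma0 N) →+ A}
    (hφ : ∀ γ : Gamma0 N, (γ : SL(2, ℤ)) ∈ Gamma M → φ (Additive.ofMul γ) = 0) :
    heckeHomOp N R A l φ = ((l : ℕ) + 1) • φ := by
  refine AddMonoidHom.ext fun g => ?_
  obtain ⟨γ, rfl⟩ := Additive.ofMul.surjective g
  rw [heckeHomOp_apply, AddMonoidHom.coe_smul, Pi.smul_apply]
  set v : HeckeIdx N l → Gamma0 N := fun x => uInt N (match x.1 with | some j => j | none => 0)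
    with hv
  set f := Matrix.SpecialLinearGroup.map (n := Fin 2) (Int.castRingHom (ZMod M)) with hf
  have hrep : ∀ x : HeckeIdx N l, (heckeRepInt l x.1).map (Int.castRingHom (ZMod M)) =
      (f (v x : SL(2, ℤ)) : Matrix (Fin 2) (Fin 2) (ZMod M)) := by
    rintro ⟨x, hx⟩
    cases x with
    | none =>
      ext i j
      fin_cases i <;> fin_cases j <;> simp [hv, hf, heckeRepInt, uInt, hl]
    | some k =>
      ext i j
      fin_cases i <;> fin_cases j <;> simp [hv, hf, heckeRepInt, uInt, hl]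
  set D := heckeSystem N l with hD
  have key : ∀ x : HeckeIdx N l, φ (Additive.ofMul (D.elt γ x)) =
      φ (Additive.ofMul (v x)) + φ (Additive.ofMul γ) - φ (Additive.ofMul (v (D.next γ x))) := by
    intro x
    have e := congrArg (fun m : Matrix (Fin 2) (Fin 2) ℤ => m.map (Int.castRingHom (ZMod M)))
      (D.rep_mul γ x)
    simp only [hD, heckeSystem_rep, Matrix.map_mul, hrep] at e
    have e' : f (v x : SL(2, ℤ)) * f (γ : SL(2, ℤ)) =
        f (D.elt γ x : SL(2, ℤ)) * f (v (D.next γ x) : SL(2, ℤ)) := by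
      apply Subtype.ext
      exact e
    have hmem : ((D.elt γ x * v (D.next γ x) * (v x * γ)⁻¹ : Gamma0 N) : SL(2, ℤ)) ∈ Gamma M := by
      show f _ = 1
      simp only [Subgroup.coe_mul, Subgroup.coe_inv, map_mul, map_inv]
      rw [← e', mul_inv_cancel]
    have := hφ _ hmem
    simp only [ofMul_mul, ofMul_inv, map_add, map_neg] at this
    rw [← sub_eq_zero]
    rw [← this]
    abel
  simp only [key, Finset.sum_sub_distrib, Finset.sum_add_distrib]
  rw [Equiv.sum_comp (Equiv.ofBijective _ (D.next_bijective γ)) (fun x => φ (Additive.ofMul (v x))) |>.symm]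
  simp only [Equiv.ofBijective_apply, add_sub_cancel_left, Finset.sum_const, Finset.card_univ]
  congr 1
  rw [Fintype.card_congr (Equiv.subtypeUnivEquiv fun x _ => hlN), Fintype.card_option,
    Fintype.card_fin]

/-- **Ihara's lemma, Eisenstein form**: a pair in the kernel of the degeneracy map is killed by
`T l - (l + 1)` for every prime `l ≡ 1 (mod iharaLevel N q)`. -/
theorem ihara_eisenstein {q : ℕ} (hN : 0 < N) (hq : q.Prime) (hqN : ¬ q ∣ N)
    {φ ψ : Additive (Gamma0 N) →+ A}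
    (hK : ∀ γ : Gamma0 (N * q),
      φ (Additive.ofMul (levelIncl N q γ)) + ψ (Additive.ofMul (alphaConj N q γ)) = 0)
    (l : Nat.Primes) (hlN : ¬ (l : ℕ) ∣ N) (hl : ((l : ℕ) : ZMod (iharaLevel N q)) = 1) :
    heckeHomOp N R A l φ = ((l : ℕ) + 1) • φ ∧ heckeHomOp N R A l ψ = ((l : ℕ) + 1) • ψ :=
  ⟨heckeHomOp_eq_of_vanishing l hlN hl fun γ hγ => (ihara_vanishing hN hq hqN hK γ hγ).1,
    heckeHomOp_eq_of_vanishing l hlN hl fun γ hγ => (ihara_vanishing hN hq hqN hK γ hγ).2⟩

end FermatLib.Modular.Ihara
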