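import Fermat.Agent.Modular.Ihara.GoodHom

/-!
# Good homomorphisms are germwise invariant under `SL(2, ℚ)`
-/

set_option autoImplicit false
set_option linter.unusedSimpArgs false

namespace FermatLib.Modular.Ihara

open scoped MatrixGroups

variable {A : Type*} [AddCommGroup A] {q M : ℕ}

/-- Conjugation by `diag(q^i, q^-i)`. -/
def conjQ (q : ℕ) (hq : q ≠ 0) (i : ℤ) (x : SL(2, ℚ)) : SL(2, ℚ) :=
  hMat ((q : ℚ) ^ i) (zpow_ne_zero i (Nat.cast_ne_zero.2 hq)) * x *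
    (hMat ((q : ℚ) ^ i) (zpow_ne_zero i (Nat.cast_ne_zero.2 hq)))⁻¹

theorem conjQ_mem (hq : q ≠ 0) (i : ℤ) {x : SL(2, ℚ)} (hx : x ∈ GM q M) :
    conjQ q hq i x ∈ GM q M :=
  hMat_conj_mem_GM hq i hx _

theorem conjQ_zero (hq : q ≠ 0) (x : SL(2, ℚ)) : conjQ q hq 0 x = x := by
  obtain ⟨h00, h01, h10, h11⟩ :=
    hMat_conj ((q : ℚ) ^ (0 : ℤ)) (zpow_ne_zero 0 (Nat.cast_ne_zero.2 hq)) x
  apply sl_ext <;> unfold conjQ
  · rw [h00]
  · rw [h01]; simp
  · rw [h10]; simp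
  · rw [h11]

variable {f : SL(2, ℚ) → A}

/-- Every `x ∈ GM q (M ^ 2)` can be moved, without changing any `f ∘ conjQ i`, to an element
with first row `(-r, M * β)` for a large prime `r ≡ -1 (mod K)` and an integer `β`. -/
theorem exists_normalForm (hq : q.Prime) (hM2 : 2 ≤ M) (hMq : M.Coprime q) (hf : GoodHom q M f)
    {K : ℕ} (hK : 0 < K) (hMK : M ^ 2 ∣ K) {x : SL(2, ℚ)} (hx : x ∈ GM q (M ^ 2)) :
    ∃ (r : ℕ) (β : ℤ) (y : SL(2, ℚ)), r.Prime ∧ K + q < r ∧ (K : ℤ) ∣ (r : ℤ) + 1 ∧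
      IsCoprime β (r : ℤ) ∧ y ∈ GM q M ∧ y 0 0 = -(r : ℚ) ∧ y 0 1 = (M : ℚ) * β ∧
      ∀ i : ℤ, f (conjQ q hq.ne_zero i x) = f (conjQ q hq.ne_zero i y) := by
  have hxM : x ∈ GM q M := GM_mono (dvd_pow_self M two_ne_zero) hx
  obtain ⟨ha, hb, hc, hd⟩ := hx
  have hM2q : (M ^ 2).Coprime q := hMq.pow_left 2
  have hM1 : M ^ 2 ≠ 1 := by nlinarith
  have hMQ : (M : ℚ) ≠ 0 := Nat.cast_ne_zero.2 (by omega)
  have ha0 : x 0 0 ≠ 0 := by
    intro h
    rw [h, zero_sub] at ha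
    exact one_notMem_qMul hM2q hM1 (by simpa using neg_mem ha)
  obtain ⟨n, hn0, hnq, han, hn⟩ :=
    exists_nat_qMul_le_mul hq (entries_qMul_one_of_GM hxM 0 0) ha0
  -- make `b / M` a large prime
  have hb1 : x 0 1 / (M : ℚ) ∈ qMul q 1 := by
    refine div_natCast_mem_qMul (by omega) ?_
    simpa using qMul_mono (dvd_pow_self M two_ne_zero) hb
  obtain ⟨z, hz⟩ := exists_int_sub_mem_qMul hnq hb1
  obtain ⟨zc, hzc⟩ := exists_int_sub_mem_qMul hnq (entries_qMul_one_of_GM hxM 1 0)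
  have hzn : IsCoprime z (n : ℤ) := by
    have key : (((1 : ℤ) + M * zc * z : ℤ) : ℚ) ∈ qMul q n := by
      push_cast
      have e : (1 : ℚ) + M * zc * z = x 0 0 * x 1 1 - (x 1 0 - zc) * x 0 1
          - (M : ℚ) * zc * (x 0 1 / M - z) := by
        field_simp
        linear_combination -(det_entries x)
      rw [e]
      refine sub_mem (sub_mem (mul_one_mem_qMul han (entries_qMul_one_of_GM hxM 1 1))
        (mul_one_mem_qMul hzc (entries_qMul_one_of_GM hxM 0 1))) (one_mul_mem_qMul ?_ hz)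
      exact mul_mem_qMul_one (natCast_mem_qMul_one M) (intCast_mem_qMul_one zc)
    obtain ⟨t, ht⟩ := (intCast_mem_qMul_iff hnq).1 key
    exact ⟨-(M * zc), t, by linear_combination -ht⟩
  obtain ⟨b₀, hb₀gt, hb₀, hb₀n, -⟩ := exists_prime_gt_crt hn0.ne' one_ne_zero
    (Nat.coprime_one_right n) hzn (isCoprime_one_right (x := (0 : ℤ))) (K + q)
  obtain ⟨y₁, hy₁, hy₁e⟩ := hn ((b₀ : ℚ) - x 0 1 / M) (by
    have hmem := sub_mem (intCast_mem_qMul (q := q) hb₀n) hz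
    push_cast at hmem
    simpa using hmem)
  set x₂ := x * uMat ((M : ℚ) * y₁) with hx₂
  have hMy₁ : (M : ℚ) * y₁ ∈ qMul q M := by
    simpa using mul_mem_qMul (natCast_mem_qMul M) hy₁
  have hx₂M : x₂ ∈ GM q M := mul_mem hxM (uMat_mem_GM hMy₁)
  have h₂00 : x₂ 0 0 = x 0 0 := by rw [hx₂, mul_entry]; simp [uMat]
  have h₂01 : x₂ 0 1 = (M : ℚ) * b₀ := by
    rw [hx₂, mul_entry]
    simp only [uMat, mkSL_01, mkSL_11]
    field_simp at hy₁e
    linear_combination -hy₁e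
  have hb₀q : b₀.Coprime q := (Nat.coprime_primes hb₀ hq).2 (by omega)
  have hKb : b₀.Coprime K :=
    hb₀.coprime_iff_not_dvd.2 fun h => absurd (Nat.le_of_dvd hK h) (by omega)
  -- make `-a` a large prime
  obtain ⟨za, hza⟩ := exists_int_sub_mem_qMul hb₀q (entries_qMul_one_of_GM hxM 0 0)
  obtain ⟨zd, hzd⟩ := exists_int_sub_mem_qMul hb₀q (entries_qMul_one_of_GM hx₂M 1 1)
  have hzab : IsCoprime za (b₀ : ℤ) := by
    have key : (((1 : ℤ) - za * zd : ℤ) : ℚ) ∈ qMul q b₀ := by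
      push_cast
      have hdet := det_entries x₂
      rw [h₂00, h₂01] at hdet
      have e : (1 : ℚ) - za * zd = (x 0 0 - za) * x₂ 1 1 + za * (x₂ 1 1 - zd)
          - (b₀ : ℚ) * (M * x₂ 1 0) := by
        linear_combination -hdet
      rw [e]
      refine sub_mem (add_mem (mul_one_mem_qMul hza (entries_qMul_one_of_GM hx₂M 1 1))
        (one_mul_mem_qMul (intCast_mem_qMul_one za) hzd)) (mul_one_mem_qMul (natCast_mem_qMul b₀) ?_)
      exact mul_mem_qMul_one (natCast_mem_qMul_one M) (entries_qMul_one_of_GM hx₂M 1 0)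
    obtain ⟨t, ht⟩ := (intCast_mem_qMul_iff hb₀q).1 key
    exact ⟨zd, t, by linear_combination -ht⟩
  obtain ⟨r, hrgt, hr, hrb, hrK⟩ := exists_prime_gt_crt hb₀.ne_zero hK.ne' hKb hzab.neg_left
    (isCoprime_one_left (x := (K : ℤ))).neg_left (b₀ + K + q)
  have hbM : (M ^ 2).Coprime b₀ := (hKb.coprime_dvd_right hMK).symm
  have h3 : -(r : ℚ) - x 0 0 ∈ qMul q (M ^ 2 * b₀) := by
    refine mem_qMul_mul_of_coprime hbM hb₀q ?_ ?_
    · have hd1 : ((M ^ 2 : ℕ) : ℤ) ∣ -(r : ℤ) - 1 := by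
        have := (Int.natCast_dvd_natCast.2 hMK).trans hrK
        rw [show -(r : ℤ) - 1 = -((r : ℤ) - -1) by ring]
        exact this.neg_right
      have hmem := sub_mem (intCast_mem_qMul (q := q) hd1) ha
      push_cast at hmem
      simpa using hmem
    · have hd1 : (b₀ : ℤ) ∣ -(r : ℤ) - za := by
        rw [show -(r : ℤ) - za = -((r : ℤ) - -za) by ring]
        exact hrb.neg_right
      have hmem := sub_mem (intCast_mem_qMul (q := q) hd1) hza
      push_cast at hmem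
      simpa using hmem
  set y₂ := (-(r : ℚ) - x 0 0) / ((M : ℚ) * b₀) with hy₂
  have hy₂M : y₂ ∈ qMul q M := by
    have := div_natCast_mem_qMul (q := q) (M := M) (n := M * b₀) (x := -(r : ℚ) - x 0 0)
      (mul_ne_zero (by omega) hb₀.ne_zero) (by rwa [← mul_assoc, ← pow_two])
    push_cast at this
    exact this
  refine ⟨r, b₀, x₂ * lMat y₂, hr, by omega, by rw [show (r : ℤ) + 1 = (r : ℤ) - -1 by ring]; exact hrK,
    Int.isCoprime_iff_nat_coprime.2 (by simpa using (Nat.coprime_primes hb₀ hr).2 (by omega)),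
    mul_mem hx₂M (lMat_mem_GM hy₂M), ?_, ?_, fun i => ?_⟩
  · rw [mul_entry, h₂00, h₂01, hy₂]
    simp only [lMat, mkSL_00, mkSL_10]
    have hbQ : (b₀ : ℚ) ≠ 0 := Nat.cast_ne_zero.2 hb₀.ne_zero
    field_simp
    ring
  · rw [mul_entry, h₂01]
    simp [lMat]
  · have hi : ∀ j : ℤ, (q : ℚ) ^ j ∈ qMul q 1 := qpow_zpow_mem_qMul_one hq.ne_zero
    have e1 : f (conjQ q hq.ne_zero i x₂) = f (conjQ q hq.ne_zero i x) := by
      rw [hx₂, conjQ, conjQ, conj_mul.symm, hMat_conj_uMat]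
      refine hf.map_mul_uMat (conjQ_mem hq.ne_zero i hxM) ?_
      rw [pow_two]
      exact one_mul_mem_qMul (mul_mem_qMul_one (hi i) (hi i)) hMy₁
    have e2 : f (conjQ q hq.ne_zero i (x₂ * lMat y₂)) = f (conjQ q hq.ne_zero i x₂) := by
      rw [conjQ, conjQ, conj_mul.symm, hMat_conj_lMat]
      refine hf.map_mul_lMat (conjQ_mem hq.ne_zero i hx₂M) ?_
      rw [pow_two, div_eq_mul_inv, mul_inv, ← _root_.zpow_neg]
      exact mul_one_mem_qMul hy₂M (mul_mem_qMul_one (hi _) (hi _))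
    rw [e2, e1]

theorem hMat_sq_mem_germFix [hq : Fact q.Prime] :
    hMat ((q : ℚ) ^ (2 : ℤ)) (zpow_ne_zero _ (Nat.cast_ne_zero.2 hq.out.ne_zero)) ∈
      germFix q A := by
  intro M f hM0 hMq hf
  have hq2 := hq.out.two_le
  -- enlarge the level to be at least two
  obtain ⟨L, hL2, hLq, hML⟩ : ∃ L, 2 ≤ L ∧ L.Coprime q ∧ M ∣ L :=
    ⟨M * (q + 1), by
      have : 1 * (q + 1) ≤ M * (q + 1) := Nat.mul_le_mul_right _ hM0
      omega,
      hMq.mul_left (Nat.coprime_self_add_left.2 (Nat.coprime_one_left q) |> fun h => by simpa using h),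
      dvd_mul_right _ _⟩
  have hfL : GoodHom q L f :=
    ⟨fun hx hy => hf.add (GM_mono hML hx) (GM_mono hML hy),
      fun hx => hf.unip (GM_mono hML hx)⟩
  obtain ⟨k, hk0, hk⟩ : ∃ k : ℕ, 0 < k ∧ ((q : ℤ) ^ k) ≡ 1 [ZMOD (L : ℤ)] := by
    refine ⟨L.totient, Nat.totient_pos.2 (by omega), ?_⟩
    have := Nat.ModEq.pow_totient hLq.symm
    exact_mod_cast (Int.natCast_modEq_iff.2 this)
  refine ⟨L ^ 2, pow_pos (by omega) _, hLq.pow_left 2, hML.trans (dvd_pow_self L two_ne_zero),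
    fun x hx => ?_⟩
  have hxL : x ∈ GM q L := GM_mono (dvd_pow_self L two_ne_zero) hx
  refine ⟨GM_mono hML (conjQ_mem hq.out.ne_zero 2 hxL), ?_⟩
  obtain ⟨r, β, y, hr, hrK, hrdvd, -, hy, hy00, hy01, hxy⟩ :=
    exists_normalForm hq.out hL2 hLq hfL (K := 4 * k * L ^ 2)
      (by positivity) (dvd_mul_left _ _) hx
  set F : ℤ → A := fun i => f (conjQ q hq.out.ne_zero i y) with hF
  have hqQ : (q : ℚ) ≠ 0 := Nat.cast_ne_zero.2 hq.out.ne_zero
  -- period `k`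
  have hkmem : ∀ h0, hMat ((q : ℚ) ^ (k : ℤ)) h0 ∈ GM q L := by
    intro h0
    obtain ⟨t, ht⟩ := Int.modEq_iff_dvd.1 hk.symm
    have hu : (q : ℚ) ^ (-(k : ℤ)) ∈ qMul q 1 := qpow_zpow_mem_qMul_one hq.out.ne_zero _
    have h1 : (q : ℚ) ^ (k : ℤ) - 1 ∈ qMul q L := by
      have := intCast_mem_qMul (q := q) (M := L) (n := (q : ℤ) ^ k - 1) ⟨t, ht⟩
      push_cast at this
      simpa using this
    refine ⟨by simpa [hMat] using h1, by simp [hMat, zero_mem], by simp [hMat, zero_mem], ?_⟩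
    simp only [hMat, mkSL_11]
    rw [← _root_.zpow_neg]
    convert neg_mem (mul_one_mem_qMul h1 hu) using 1
    rw [sub_mul, _root_.zpow_neg, mul_inv_cancel₀ h0]
    ring
  have hper1 : Function.Periodic F (k : ℤ) := fun i => by
    simp only [hF, conjQ]
    have e : hMat ((q : ℚ) ^ (i + k)) (zpow_ne_zero _ hqQ) =
        hMat ((q : ℚ) ^ (k : ℤ)) (zpow_ne_zero _ hqQ) *
          hMat ((q : ℚ) ^ i) (zpow_ne_zero _ hqQ) := by
      rw [hMat_mul_hMat]
      congr 1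
      rw [zpow_add₀ hqQ, mul_comm]
    have hcj := hfL.map_conj (hkmem (zpow_ne_zero _ hqQ)) (conjQ_mem hq.out.ne_zero i hy)
    simp only [conjQ] at hcj
    rw [e, ← hcj]
    congr 1
    group
  -- period `r - 1`
  have hper2 : Function.Periodic F (((r - 1 : ℕ) : ℤ)) := fun i => by
    have hrq : IsCoprime (q : ℤ) (r : ℤ) :=
      Int.isCoprime_iff_nat_coprime.2 (by simpa using (Nat.coprime_primes hq.out hr).2 (by omega))
    obtain ⟨t, ht⟩ : (r : ℤ) ∣ (q : ℤ) ^ (2 * (r - 1)) - 1 := by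
      have h1 : (q : ℤ) ^ (r - 1) ≡ 1 [ZMOD r] := Int.ModEq.pow_card_sub_one_eq_one hr hrq
      rw [mul_comm 2 (r - 1), pow_mul]
      have := (h1.pow 2).symm
      simpa using Int.modEq_iff_dvd.1 this
    set u := conjQ q hq.out.ne_zero i y with hu
    have huM : u ∈ GM q L := conjQ_mem hq.out.ne_zero i hy
    set z : ℚ := -((L : ℚ) * β * (q : ℚ) ^ (2 * i) * t) with hz
    have hzM : z ∈ qMul q L := by
      refine neg_mem (mul_one_mem_qMul (mul_one_mem_qMul ?_ ?_) (intCast_mem_qMul_one t))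
      · exact mul_one_mem_qMul (natCast_mem_qMul L) (intCast_mem_qMul_one β)
      · exact qpow_zpow_mem_qMul_one hq.out.ne_zero _
    show f (conjQ q hq.out.ne_zero (i + (r - 1 : ℕ)) y) = f u
    rw [← hfL.map_mul_uMat huM hzM]
    have hc1 := hMat_conj ((q : ℚ) ^ i) (zpow_ne_zero i hqQ) y
    have hc2 := hMat_conj ((q : ℚ) ^ (i + (r - 1 : ℕ))) (zpow_ne_zero _ hqQ) y
    refine hfL.eq_of_row_eq (conjQ_mem hq.out.ne_zero _ hy) (mul_mem huM (uMat_mem_GM hzM)) ?_ ?_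
    · rw [mul_entry, hu]
      simp only [conjQ, uMat, mkSL_00, mkSL_10, hc1.1, hc2.1]
      ring
    · rw [mul_entry, hu]
      simp only [conjQ, uMat, mkSL_01, mkSL_11, hc1.1, hc1.2.1, hc2.2.1, hy00, hy01]
      have ht' : (q : ℚ) ^ (2 * (r - 1)) - 1 = r * t := by exact_mod_cast ht
      have e1 : ((q : ℚ) ^ (i + (r - 1 : ℕ))) ^ 2 = ((q : ℚ) ^ i) ^ 2 * (q : ℚ) ^ (2 * (r - 1)) := by
        rw [zpow_add₀ hqQ, zpow_natCast]
        ring
      have e2 : (q : ℚ) ^ (2 * i) = ((q : ℚ) ^ i) ^ 2 := by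
        rw [mul_comm 2 i, zpow_mul]
        norm_cast
      rw [hz, e1, e2]
      linear_combination ((q : ℚ) ^ i) ^ 2 * (L : ℚ) * β * ht'
  -- periods give period two
  have hg : (Int.gcd (k : ℤ) ((r - 1 : ℕ) : ℤ)) ∣ 2 := by
    rw [Int.gcd_natCast_natCast]
    set g := Nat.gcd k (r - 1) with hg
    have hgK : ((g : ℕ) : ℤ) ∣ ((4 * k * L ^ 2 : ℕ) : ℤ) :=
      Int.natCast_dvd_natCast.2 ((Nat.gcd_dvd_left k (r - 1)).trans ⟨4 * L ^ 2, by ring⟩)
    have hgr : ((g : ℕ) : ℤ) ∣ (r : ℤ) - 1 := by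
      have := Int.natCast_dvd_natCast.2 (Nat.gcd_dvd_right k (r - 1))
      rwa [Nat.cast_sub hr.one_le, Nat.cast_one] at this
    have := dvd_sub (hgK.trans hrdvd) hgr
    rw [show (r : ℤ) + 1 - ((r : ℤ) - 1) = 2 by ring] at this
    exact_mod_cast this
  have hperg : Function.Periodic F ((Int.gcd (k : ℤ) ((r - 1 : ℕ) : ℤ) : ℕ) : ℤ) := by
    rw [Int.gcd_eq_gcd_ab]
    exact (by simpa [mul_comm] using hper1.int_mul (Int.gcdA k ((r - 1 : ℕ) : ℤ)) :
      Function.Periodic F ((k : ℤ) * Int.gcdA k ((r - 1 : ℕ) : ℤ))).add_period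
      (by simpa [mul_comm] using hper2.int_mul (Int.gcdB k ((r - 1 : ℕ) : ℤ)))
  obtain ⟨c, hc⟩ := hg
  have hper : Function.Periodic F 2 := by
    have := hperg.int_mul (c : ℤ)
    have e : ((c : ℤ)) * ((Int.gcd (k : ℤ) ((r - 1 : ℕ) : ℤ) : ℕ) : ℤ) = 2 := by
      rw [mul_comm]; exact_mod_cast hc.symm
    simp only [Int.cast_id] at this
    rwa [e] at this
  have := hper 0
  simp only [hF, zero_add] at this
  rw [← hxy 2, ← hxy 0, conjQ_zero] at this
  exact this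

/-- Every rational diagonal matrix fixes the germ of every good homomorphism. -/
theorem hMat_mem_germFix [hq : Fact q.Prime] (t : ℚ) (ht : t ≠ 0) :
    hMat t ht ∈ germFix q A := by
  refine subgroup_eq_top_of_normal_of_hMat (germFix_normal q A) _ ?_
    (hMat_sq_mem_germFix (q := q) (A := A)) t ht
  have h1 : (1 : ℚ) < q := by exact_mod_cast hq.out.one_lt
  have : (1 : ℚ) < ((q : ℚ) ^ (2 : ℤ)) ^ 2 := by
    rw [zpow_two]
    exact one_lt_pow₀ (by nlinarith) two_ne_zero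
  exact this.ne'

end FermatLib.Modular.Ihara
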