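import Fermat.Agent.Modular.Ihara.SL2Q

/-!
# Generation of congruence subgroups by unipotents modulo a deeper level
-/

set_option autoImplicit false
set_option linter.unusedSimpArgs false

namespace FermatLib.Modular.Ihara

open scoped MatrixGroups

variable {q M C L : ℕ}

/-- `GM q M` with the lower left entry divisible by `C`. -/
def GMc (q M C : ℕ) : Subgroup SL(2, ℚ) where
  carrier := {x | x ∈ GM q M ∧ x 1 0 ∈ qMul q C}
  one_mem' := ⟨one_mem _, by simp [zero_mem]⟩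
  mul_mem' := by
    rintro x y ⟨hx, hx'⟩ ⟨hy, hy'⟩
    refine ⟨mul_mem hx hy, ?_⟩
    rw [mul_entry]
    exact add_mem (mul_one_mem_qMul hx' (entries_qMul_one_of_GM hy 0 0))
      (one_mul_mem_qMul (entries_qMul_one_of_GM hx 1 1) hy')
  inv_mem' := by
    rintro x ⟨hx, hx'⟩
    exact ⟨inv_mem hx, by rw [inv_10]; exact neg_mem hx'⟩

theorem mem_GMc_iff {x : SL(2, ℚ)} : x ∈ GMc q M C ↔ x ∈ GM q M ∧ x 1 0 ∈ qMul q C :=
  Iff.rfl

theorem GM_le_GMc (hM : M ∣ L) (hC : C ∣ L) : GM q L ≤ GMc q M C :=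
  fun _ hx => ⟨GM_mono hM hx, qMul_mono hC hx.2.2.1⟩

theorem uMat_mem_GMc {x : ℚ} (hx : x ∈ qMul q M) : uMat x ∈ GMc q M C :=
  ⟨uMat_mem_GM hx, by simp [uMat, zero_mem]⟩

theorem lMat_mem_GMc (hMC : M ∣ C) {x : ℚ} (hx : x ∈ qMul q C) : lMat x ∈ GMc q M C :=
  ⟨lMat_mem_GM (qMul_mono hMC hx), by simpa [lMat] using hx⟩

theorem exists_shift_isCoprime {za zc : ℤ} (hL : 0 < L)
    (h1 : ∀ l : ℕ, l.Prime → l ∣ L → (l : ℤ) ∣ za → ¬ (l : ℤ) ∣ zc)
    (h2 : ∀ l : ℕ, l.Prime → l ∣ M → ¬ (l : ℤ) ∣ za) :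
    ∃ w : ℤ, IsCoprime (za + M * w * zc) (L : ℤ) := by
  classical
  refine ⟨((∏ l ∈ L.primeFactors.filter fun l : ℕ => ¬ ((l : ℤ) ∣ za), l : ℕ) : ℤ), ?_⟩
  set w := (∏ l ∈ L.primeFactors.filter fun l : ℕ => ¬ ((l : ℤ) ∣ za), l : ℕ) with hw
  refine Int.isCoprime_iff_nat_coprime.2 (Nat.coprime_of_dvd fun l hl hla hlL => ?_)
  rw [Int.natAbs_natCast] at hlL
  have hla' : (l : ℤ) ∣ za + M * w * zc := Int.ofNat_dvd_left.2 hla
  have hlp : Prime (l : ℤ) := Nat.prime_iff_prime_int.1 hl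
  by_cases hza : (l : ℤ) ∣ za
  · have := (dvd_add_right hza).1 hla'
    rcases hlp.dvd_mul.1 this with h | h
    · rcases hlp.dvd_mul.1 h with h | h
      · exact h2 l hl (by exact_mod_cast h) hza
      · rw [Int.natCast_dvd_natCast] at h
        obtain ⟨j, hj, hlj⟩ := (hl.prime.dvd_finsetProd_iff _).1 h
        rw [Finset.mem_filter, Nat.mem_primeFactors] at hj
        rw [(Nat.prime_dvd_prime_iff_eq hl hj.1.1).1 hlj] at hza
        exact hj.2 hza
    · exact h1 l hl hlL hza h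
  · have hlw : l ∣ w :=
      Finset.dvd_prod_of_mem (fun l : ℕ => l) (Finset.mem_filter.2 ⟨Nat.mem_primeFactors.2 ⟨hl, hlL, hL.ne'⟩, hza⟩)
    refine hza ((dvd_add_left ?_).1 hla')
    exact dvd_mul_of_dvd_left (dvd_mul_of_dvd_right (Int.natCast_dvd_natCast.2 hlw) _) _

variable {A : Type*} [AddCommGroup A]

/-- A homomorphism on `GMc q M C` that kills the elementary matrices and a congruence subgroup
kills every element with upper left entry `≡ 1 (mod M * C)`. -/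
theorem eq_zero_of_elementary (hM : 0 < M) (hMC : M ∣ C) (hL : 0 < L) (hLq : L.Coprime q)
    (hCL : C ∣ L) {D : SL(2, ℚ) → A}
    (hadd : ∀ {x y}, x ∈ GMc q M C → y ∈ GMc q M C → D (x * y) = D x + D y)
    (hu : ∀ {t : ℚ}, t ∈ qMul q M → D (uMat t) = 0)
    (hl : ∀ {t : ℚ}, t ∈ qMul q C → D (lMat t) = 0)
    (hdeep : ∀ x ∈ GM q L, D x = 0)
    {x : SL(2, ℚ)} (hx : x ∈ GMc q M C) (ha : x 0 0 - 1 ∈ qMul q (M * C)) : D x = 0 := by
  have hML : M ∣ L := hMC.trans hCL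
  have hMq : M.Coprime q := hLq.coprime_dvd_left hML
  have hent := entries_qMul_one_of_GM hx.1
  obtain ⟨za, hza⟩ := exists_int_sub_mem_qMul hLq (hent 0 0)
  obtain ⟨zb, hzb⟩ := exists_int_sub_mem_qMul hLq (hent 0 1)
  obtain ⟨zc, hzc⟩ := exists_int_sub_mem_qMul hLq (hent 1 0)
  obtain ⟨zd, hzd⟩ := exists_int_sub_mem_qMul hLq (hent 1 1)
  have hdet : (L : ℤ) ∣ za * zd - zb * zc - 1 := by
    refine (intCast_mem_qMul_iff hLq).1 ?_
    push_cast
    have e : (za : ℚ) * zd - zb * zc - 1 = (x 0 1 - zb) * x 1 0 + zb * (x 1 0 - zc)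
        - ((x 0 0 - za) * x 1 1 + za * (x 1 1 - zd)) := by
      linear_combination det_entries x
    rw [e]
    exact sub_mem (add_mem (mul_one_mem_qMul hzb (hent 1 0))
        (one_mul_mem_qMul (intCast_mem_qMul_one zb) hzc))
      (add_mem (mul_one_mem_qMul hza (hent 1 1))
        (one_mul_mem_qMul (intCast_mem_qMul_one za) hzd))
  have hza1 : (M : ℤ) ∣ za - 1 := by
    refine (intCast_mem_qMul_iff hMq).1 ?_
    push_cast
    convert sub_mem (qMul_mono (dvd_mul_right M C) ha) (qMul_mono hML hza) using 1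
    ring
  have hone : ∀ {l : ℕ}, l.Prime → ¬ (l : ℤ) ∣ (1 : ℤ) := fun hl h =>
    hl.one_lt.ne' (Nat.dvd_one.1 (by exact_mod_cast h))
  obtain ⟨w, hw⟩ := exists_shift_isCoprime (M := M) (za := za) (zc := zc) hL
    (fun l hl hlL hla hlc => hone hl <| by
      have h1 := (Int.natCast_dvd_natCast.2 hlL).trans hdet
      have := dvd_sub (dvd_sub (dvd_mul_of_dvd_left hla zd) (dvd_mul_of_dvd_right hlc zb)) h1
      rwa [sub_sub_cancel] at this)
    (fun l hl hlM hla => hone hl <| by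
      have := dvd_sub hla ((Int.natCast_dvd_natCast.2 hlM).trans hza1)
      rwa [sub_sub_cancel] at this)
  set t : ℚ := ((M * w : ℤ) : ℚ) with ht
  have htM : t ∈ qMul q M := intCast_mem_qMul (dvd_mul_right _ _)
  set x' := uMat t * x with hx'
  have hx'mem : x' ∈ GMc q M C := mul_mem (uMat_mem_GMc htM) hx
  have hDx : D x = D x' := by rw [hx', hadd (uMat_mem_GMc htM) hx, hu htM, zero_add]
  rw [hDx]
  have ha' : x' 0 0 - 1 ∈ qMul q (M * C) := by
    rw [hx', mul_entry]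
    simp only [uMat, mkSL_00, mkSL_01]
    convert add_mem ha (mul_mem_qMul htM hx.2) using 1
    ring
  obtain ⟨e, v, hev⟩ := hw
  set a := x' 0 0 with hadef
  set b := x' 0 1 with hbdef
  set c := x' 1 0 with hcdef
  set d := x' 1 1 with hddef
  have hent' := entries_qMul_one_of_GM hx'mem.1
  have hε : a * (e : ℚ) - 1 ∈ qMul q L := by
    have haz : a - ((za + M * w * zc : ℤ) : ℚ) ∈ qMul q L := by
      rw [hadef, hx', mul_entry]
      simp only [uMat, mkSL_00, mkSL_01, ht]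
      push_cast
      convert add_mem hza (one_mul_mem_qMul
        (mul_mem_qMul_one (natCast_mem_qMul_one M) (intCast_mem_qMul_one w)) hzc) using 1
      ring
    have hev' : (e : ℚ) * ((za + M * w * zc : ℤ) : ℚ) + v * L = 1 := by exact_mod_cast hev
    convert sub_mem (mul_one_mem_qMul haz (intCast_mem_qMul_one e))
      (one_mul_mem_qMul (intCast_mem_qMul_one v) (natCast_mem_qMul L)) using 1
    linear_combination hev'
  set σ : ℚ := (a - 1) / M with hσ
  have hσC : σ ∈ qMul q C := by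
    refine div_natCast_mem_qMul hM.ne' ?_
    rwa [mul_comm C M]
  have hMQ : (M : ℚ) ≠ 0 := Nat.cast_ne_zero.2 hM.ne'
  have hMσ : (M : ℚ) * σ = a - 1 := by rw [hσ]; field_simp
  have hb : b ∈ qMul q M := hx'mem.1.2.1
  have hc : c ∈ qMul q C := hx'mem.2
  have hbM : (b - M) * (e : ℚ) ∈ qMul q M :=
    mul_one_mem_qMul (sub_mem hb (natCast_mem_qMul M)) (intCast_mem_qMul_one e)
  have hcσ : (c - σ) * (e : ℚ) ∈ qMul q C :=
    mul_one_mem_qMul (sub_mem hc hσC) (intCast_mem_qMul_one e)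
  set g := lMat ((c - σ) * e) * (uMat (M : ℚ) * lMat σ * uMat ((b - M) * e)) with hg
  have m1 : lMat ((c - σ) * e) ∈ GMc q M C := lMat_mem_GMc hMC hcσ
  have m2 : uMat (M : ℚ) ∈ GMc q M C := uMat_mem_GMc (natCast_mem_qMul M)
  have m3 : lMat σ ∈ GMc q M C := lMat_mem_GMc hMC hσC
  have m4 : uMat ((b - M) * e) ∈ GMc q M C := uMat_mem_GMc hbM
  have hgmem : g ∈ GMc q M C := mul_mem m1 (mul_mem (mul_mem m2 m3) m4)
  have hgD : D g = 0 := by
    rw [hg, hadd m1 (mul_mem (mul_mem m2 m3) m4), hadd (mul_mem m2 m3) m4, hadd m2 m3, hl hcσ,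
      hu (natCast_mem_qMul M), hl hσC, hu hbM]
    abel
  have g00 : g 0 0 = a := by
    simp only [hg, mul_entry, lMat, uMat, mkSL_00, mkSL_01, mkSL_10, mkSL_11]
    linear_combination hMσ
  have g01 : g 0 1 = b + (a * e - 1) * (b - M) := by
    simp only [hg, mul_entry, lMat, uMat, mkSL_00, mkSL_01, mkSL_10, mkSL_11]
    linear_combination (b - M) * (e : ℚ) * hMσ
  have g10 : g 1 0 = c + (a * e - 1) * (c - σ) := by
    simp only [hg, mul_entry, lMat, uMat, mkSL_00, mkSL_01, mkSL_10, mkSL_11]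
    linear_combination (c - σ) * (e : ℚ) * hMσ
  have g11 : g 1 1 = d + (a * e - 1) * ((d - 1) + (c - σ) * (e : ℚ) * (b - M)) := by
    simp only [hg, mul_entry, lMat, uMat, mkSL_00, mkSL_01, mkSL_10, mkSL_11]
    linear_combination ((c - σ) * (e : ℚ) * ((b - M) * e) - (e : ℚ)) * hMσ
      - (e : ℚ) * det_entries x'
  have hgi : g⁻¹ * x' ∈ GM q L := by
    have hR : ∀ i j, g i j ∈ qMul q 1 := entries_qMul_one_of_GM hgmem.1
    have hσ1 : σ ∈ qMul q 1 := qMul_one_of_mem hσC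
    have hM1 : (M : ℚ) ∈ qMul q 1 := natCast_mem_qMul_one M
    have e00 : g 0 0 - a ∈ qMul q L := by rw [g00, sub_self]; exact zero_mem _
    have e01 : g 0 1 - b ∈ qMul q L := by
      rw [g01, add_sub_cancel_left]
      exact mul_one_mem_qMul hε (sub_mem (hent' 0 1) hM1)
    have e10 : g 1 0 - c ∈ qMul q L := by
      rw [g10, add_sub_cancel_left]
      exact mul_one_mem_qMul hε (sub_mem (hent' 1 0) hσ1)
    have e11 : g 1 1 - d ∈ qMul q L := by
      rw [g11, add_sub_cancel_left]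
      refine mul_one_mem_qMul hε (add_mem (sub_mem (hent' 1 1) one_mem_qMul_one) ?_)
      exact mul_mem_qMul_one (qMul_one_of_mem hcσ) (sub_mem (hent' 0 1) hM1)
    have hdg := det_entries g
    refine ⟨?_, ?_, ?_, ?_⟩ <;> rw [mul_entry] <;>
      simp only [inv_00, inv_01, inv_10, inv_11, ← hadef, ← hbdef, ← hcdef, ← hddef]
    · rw [show g 1 1 * a + -g 0 1 * c - 1 = g 0 1 * (g 1 0 - c) - g 1 1 * (g 0 0 - a) by
        linear_combination hdg]
      exact sub_mem (one_mul_mem_qMul (hR 0 1) e10) (one_mul_mem_qMul (hR 1 1) e00)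
    · rw [show g 1 1 * b + -g 0 1 * d = g 0 1 * (g 1 1 - d) - g 1 1 * (g 0 1 - b) by ring]
      exact sub_mem (one_mul_mem_qMul (hR 0 1) e11) (one_mul_mem_qMul (hR 1 1) e01)
    · rw [show -g 1 0 * a + g 0 0 * c = g 1 0 * (g 0 0 - a) - g 0 0 * (g 1 0 - c) by ring]
      exact sub_mem (one_mul_mem_qMul (hR 1 0) e00) (one_mul_mem_qMul (hR 0 0) e10)
    · rw [show -g 1 0 * b + g 0 0 * d - 1 = g 1 0 * (g 0 1 - b) - g 0 0 * (g 1 1 - d) by
        linear_combination hdg]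
      exact sub_mem (one_mul_mem_qMul (hR 1 0) e01) (one_mul_mem_qMul (hR 0 0) e11)
  rw [show x' = g * (g⁻¹ * x') by group, hadd hgmem (GM_le_GMc hML hCL hgi), hgD,
    hdeep _ hgi, add_zero]

end FermatLib.Modular.Ihara
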