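import Fermat.Agent.Modular.Ihara.Central
import Fermat.Agent.Modular.Ihara.Generation
import Mathlib.NumberTheory.LegendreSymbol.QuadraticReciprocity
import Mathlib.NumberTheory.Basic

/-!
# Homomorphisms killing unipotents vanish on a congruence subgroup

For every abelian group `A`, every homomorphism `GM q M → A` killing unipotents vanishes on
`GM q (M ^ 2)`: the abelianised congruence subgroup property of `SL₂(ℤ[1/q])`, proved with
Dirichlet's theorem and quadratic reciprocity.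
-/

set_option autoImplicit false
set_option linter.unusedSimpArgs false

namespace FermatLib.Modular.Ihara

open scoped MatrixGroups

variable {A : Type*} [AddCommGroup A] {q M : ℕ} {f : SL(2, ℚ) → A}

/-- If the upper left entry of `x` is a square modulo the prime `s`, conjugation by
`diag(s, 1/s)` changes `f x` by something killed by `s (s - 1) / 2`. -/
theorem map_conj_prime [hq : Fact q.Prime] (hM0 : 0 < M)
    (hMq : M.Coprime q) (hf : GoodHom q M f) {s : ℕ} (hs : s.Prime) (hs2 : s ≠ 2) (hsq : s ≠ q)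
    (hsM : s.Coprime M) {x : SL(2, ℚ)} (hx : x ∈ GMc q M (M * s ^ 2))
    (ha : x 0 0 - 1 ∈ qMul q (M ^ 2)) {z : ℤ} (hz : x 0 0 = (z : ℚ))
    (hzs : IsSquare (z : ZMod s)) :
    (s * (s / 2)) • (f (hMat (s : ℚ) (Nat.cast_ne_zero.2 hs.ne_zero) * x *
      (hMat (s : ℚ) (Nat.cast_ne_zero.2 hs.ne_zero))⁻¹) - f x) = 0 := by
  have hs0 : (s : ℚ) ≠ 0 := Nat.cast_ne_zero.2 hs.ne_zero
  set C := M * s ^ 2 with hC
  have hsq' : (s ^ 2).Coprime q := ((Nat.coprime_primes hs hq.out).2 hsq).pow_left 2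
  set h := hMat (s : ℚ) hs0 with hh
  have hconj : ∀ {y}, y ∈ GMc q M C → h * y * h⁻¹ ∈ GM q M := by
    intro y hy
    obtain ⟨h00, h01, h10, h11⟩ := hMat_conj (s : ℚ) hs0 y
    obtain ⟨⟨a, b, -, d⟩, c⟩ := mem_GMc_iff.1 hy
    refine ⟨by rw [h00]; exact a, ?_, ?_, by rw [h11]; exact d⟩
    · rw [h01]
      exact one_mul_mem_qMul (pow_mem_qMul_one (natCast_mem_qMul_one s) 2) b
    · rw [h10]
      have := div_natCast_mem_qMul (pow_ne_zero 2 hs.ne_zero) (q := q) (M := M) c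
      push_cast at this
      exact this
  set D : SL(2, ℚ) → A := fun y => f (h * y * h⁻¹) - f y with hD
  have hadd : ∀ {y z}, y ∈ GMc q M C → z ∈ GMc q M C → D (y * z) = D y + D z := by
    intro y z hy hz
    simp only [hD]
    rw [show h * (y * z) * h⁻¹ = (h * y * h⁻¹) * (h * z * h⁻¹) by group,
      hf.add (hconj hy) (hconj hz), hf.add hy.1 hz.1]
    abel
  have hMC : M ∣ C := dvd_mul_right _ _
  obtain ⟨L, hL0, hLq, hML, hL⟩ := hMat_mem_germFix (q := q) (A := A) (s : ℚ) hs0 M f hM0 hMq hf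
  have key : ∀ {y}, y ∈ GMc q M C → y 0 0 - 1 ∈ qMul q (M * C) → D y = 0 := by
    intro y hy hy1
    refine eq_zero_of_elementary (L := L * C) hM0 hMC
      (by rw [hC]; exact Nat.mul_pos hL0 (Nat.mul_pos hM0 (pow_pos hs.pos 2)))
      (hLq.mul_left (hMq.mul_left hsq')) (dvd_mul_left _ _) hadd ?_ ?_ ?_ hy hy1
    · intro t ht
      have e : f (h * uMat t * h⁻¹) = 0 := by
        rw [hh, hMat_conj_uMat]
        exact hf.map_uMat (one_mul_mem_qMul (pow_mem_qMul_one (natCast_mem_qMul_one s) 2) ht)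
      simp only [hD, e, hf.map_uMat ht, sub_zero]
    · intro t ht
      have h' : t / (s : ℚ) ^ 2 ∈ qMul q M := by
        have := div_natCast_mem_qMul (pow_ne_zero 2 hs.ne_zero) (q := q) (M := M) ht
        push_cast at this
        exact this
      have e : f (h * lMat t * h⁻¹) = 0 := by
        rw [hh, hMat_conj_lMat]
        exact hf.map_lMat h'
      simp only [hD, e, hf.map_lMat (qMul_mono hMC ht), sub_zero]
    · intro z hz
      have := (hL z (GM_mono (dvd_mul_right _ _) hz)).2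
      simp only [hD]
      rw [this, sub_self]
  -- pass to the power `k = s (s - 1) / 2`
  set k := s * (s / 2) with hk
  have hpow : ∀ n : ℕ, D (x ^ n) = n • D x ∧ (x ^ n) 0 0 - x 0 0 ^ n ∈ qMul q (M * C) := by
    intro n
    induction n with
    | zero =>
      refine ⟨?_, by simp [zero_mem]⟩
      simp [hD, hf.map_one]
    | succ n ih =>
      refine ⟨by rw [pow_succ, hadd (pow_mem hx n) hx, ih.1, succ_nsmul], ?_⟩
      rw [pow_succ x, mul_entry, pow_succ (x 0 0)]
      convert add_mem (mul_one_mem_qMul ih.2 (entries_qMul_one_of_GM hx.1 0 0))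
        (mul_mem_qMul ((pow_mem hx n : x ^ n ∈ GMc q M C).1.2.1) hx.2) using 1
      ring
  have hk1 : (x ^ k) 0 0 - 1 ∈ qMul q (M * C) := by
    have hM2 : x 0 0 ^ k - 1 ∈ qMul q (M ^ 2) := by
      have : ∀ n : ℕ, x 0 0 ^ n - 1 ∈ qMul q (M ^ 2) := by
        intro n
        induction n with
        | zero => simp [zero_mem]
        | succ n ih =>
          rw [show x 0 0 ^ (n + 1) - 1 = (x 0 0 ^ n - 1) * x 0 0 + (x 0 0 - 1) by ring]
          exact add_mem (mul_one_mem_qMul ih (entries_qMul_one_of_GM hx.1 0 0)) ha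
      exact this k
    have hs2' : x 0 0 ^ k - 1 ∈ qMul q (s ^ 2) := by
      haveI : Fact s.Prime := ⟨hs⟩
      have hc' : x 1 0 ∈ qMul q (s ^ 2) := qMul_mono (dvd_mul_left _ _) hx.2
      have hz0 : (z : ZMod s) ≠ 0 := by
        intro h0
        rw [ZMod.intCast_zmod_eq_zero_iff_dvd] at h0
        have hzmem : x 0 0 ∈ qMul q s := by rw [hz]; exact intCast_mem_qMul h0
        refine one_notMem_qMul ((Nat.coprime_primes hs hq.out).2 hsq) hs.ne_one ?_
        rw [show (1 : ℚ) = x 0 0 * x 1 1 - x 0 1 * x 1 0 from (det_entries x).symm]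
        exact sub_mem (mul_one_mem_qMul hzmem (entries_qMul_one_of_GM hx.1 1 1))
          (one_mul_mem_qMul (entries_qMul_one_of_GM hx.1 0 1)
            (qMul_mono (dvd_pow_self s two_ne_zero) hc'))
      have h1 : ((s : ℤ)) ∣ z ^ (s / 2) - 1 := by
        rw [← ZMod.intCast_zmod_eq_zero_iff_dvd]
        push_cast
        rw [sub_eq_zero]
        exact (ZMod.euler_criterion s hz0).1 hzs
      obtain ⟨t, ht⟩ := dvd_sub_pow_of_dvd_sub h1 1
      rw [pow_one, one_pow, ← pow_mul, show s / 2 * s = k by rw [hk, mul_comm]] at ht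
      have := intCast_mem_qMul (q := q) (M := s ^ 2) (n := z ^ k - 1) ⟨t, by
        rw [ht]; push_cast; ring⟩
      push_cast at this
      rwa [← hz] at this
    have := mem_qMul_mul_of_coprime ((hsM.symm.pow_left 2).pow_right 2) hsq' hM2 hs2'
    rw [show M ^ 2 * s ^ 2 = M * C by rw [hC]; ring] at this
    convert add_mem (hpow k).2 this using 1
    ring
  have := key (pow_mem hx k) hk1
  rw [(hpow k).1] at this
  exact this


/-- For each prime `p` a multiple of `f x` prime to `p` vanishes. -/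
theorem GoodHom.exists_coprime_smul_eq_zero [hq : Fact q.Prime] {p : ℕ} (hp : p.Prime)
    (hM2 : 2 ≤ M) (hMq : M.Coprime q) (hf : GoodHom q M f) {x : SL(2, ℚ)}
    (hx : x ∈ GM q (M ^ 2)) : ∃ k : ℕ, k.Coprime p ∧ k • f x = 0 := by
  obtain ⟨r, β, y, hr, hrK, hrdvd, hβr, hy, hy00, hy01, hxy⟩ :=
    exists_normalForm hq.out hM2 hMq hf (K := 4 * p * M ^ 2)
      (by have := hp.pos; positivity) (dvd_mul_left _ _) hx
  have hfx : f x = f y := by simpa [conjQ_zero] using hxy 0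
  rw [hfx]
  have hp2 := hp.two_le
  haveI : Fact r.Prime := ⟨hr⟩
  have hM0 : 0 < M := by omega
  have hKM : ((M : ℤ) ^ 2) ∣ ((4 * p * M ^ 2 : ℕ) : ℤ) := ⟨4 * p, by push_cast; ring⟩
  have hrM : ((M : ℤ) ^ 2) ∣ (r : ℤ) + 1 := hKM.trans hrdvd
  have hr4 : r % 4 = 3 := by
    have h4 : (4 : ℤ) ∣ (r : ℤ) + 1 :=
      (Dvd.intro ((p : ℤ) * M ^ 2) (by push_cast; ring)).trans hrdvd
    omega
  have hpK : p ≤ 4 * p * M ^ 2 := by
    have : 1 ≤ M ^ 2 := Nat.one_le_pow _ _ hM0
    nlinarith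
  have hrp : r ≠ p := by omega
  -- square class of `β` modulo `r`
  have hβ0 : (β : ZMod r) ≠ 0 := by
    intro h
    rw [ZMod.intCast_zmod_eq_zero_iff_dvd] at h
    have := hβr.isUnit_of_dvd' h dvd_rfl
    rw [Int.isUnit_iff_natAbs_eq, Int.natAbs_natCast] at this
    exact hr.ne_one this
  have hneg : ¬ IsSquare (-1 : ZMod r) := by
    rw [ZMod.exists_sq_eq_neg_one_iff]; simpa using hr4
  have hr2 : ringChar (ZMod r) ≠ 2 := by
    rw [ZMod.ringChar_zmod_n]; omega
  have hflip : ∀ u : ZMod r, u ≠ 0 → ¬ IsSquare u → IsSquare (-1 * u) := fun u hu0 hu => by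
    have h3 : quadraticChar (ZMod r) (-1 * u) = 1 := by
      rw [map_mul, quadraticChar_neg_one_iff_not_isSquare.2 hneg,
        quadraticChar_neg_one_iff_not_isSquare.2 hu]
      rfl
    exact (quadraticChar_one_iff_isSquare (mul_ne_zero (by simp) hu0)).1 h3
  obtain ⟨ε, hε, T₀, hT₀⟩ : ∃ ε : ℤ, ε * ε = 1 ∧ ∃ T : ZMod r, (β : ZMod r) = ε * T ^ 2 := by
    by_cases hsq : IsSquare (β : ZMod r)
    · obtain ⟨T, hT⟩ := hsq
      exact ⟨1, rfl, T, by rw [hT]; push_cast; ring⟩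
    · obtain ⟨T, hT⟩ := hflip _ hβ0 hsq
      exact ⟨-1, rfl, T, by push_cast; linear_combination (-1 : ZMod r) * hT⟩
  obtain ⟨T, hT, hTsq⟩ : ∃ T : ZMod r, (β : ZMod r) = ε * T ^ 2 ∧ IsSquare T := by
    by_cases hsq : IsSquare T₀
    · exact ⟨T₀, hT₀, hsq⟩
    · refine ⟨-1 * T₀, by rw [hT₀]; ring, hflip _ ?_ hsq⟩
      rintro rfl
      simp [hT₀] at hβ0
  have hT0 : T ≠ 0 := by
    rintro rfl
    simp [hT] at hβ0
  have hTcop : IsCoprime (T.val : ℤ) (r : ℤ) := by
    refine Int.isCoprime_iff_nat_coprime.2 ?_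
    rw [Int.natAbs_natCast, Int.natAbs_natCast]
    refine (hr.coprime_iff_not_dvd.2 fun h => hT0 ?_).symm
    rw [← ZMod.natCast_zmod_val T, ZMod.natCast_eq_zero_iff]
    exact h
  -- `s ≡ T (mod r)`, `s ≡ -1 (mod 4p)`
  obtain ⟨s, hsgt, hs, hsr, hsp⟩ := exists_prime_gt_crt hr.ne_zero (m₂ := 4 * p)
    (by have := hp.pos; omega)
    (hr.coprime_iff_not_dvd.2 fun h => by
      have := Nat.le_of_dvd (by have := hp.pos; omega) h
      have : 1 ≤ M ^ 2 := Nat.one_le_pow _ _ hM0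
      nlinarith)
    hTcop (isCoprime_one_left (x := ((4 * p : ℕ) : ℤ))).neg_left (q + M + p + r)
  have hsr' : (s : ZMod r) = T := by
    obtain ⟨t, ht⟩ := hsr
    have := congrArg (fun z : ℤ => (z : ZMod r)) ht
    push_cast at this
    simpa [sub_eq_zero, ZMod.natCast_self] using this
  have hsM : s.Coprime M := hs.coprime_iff_not_dvd.2 fun h => by
    have := Nat.le_of_dvd hM0 h
    omega
  have hs4 : s % 4 = 3 := by
    have h4 : (4 : ℤ) ∣ (s : ℤ) - -1 := (Dvd.intro (p : ℤ) (by push_cast; ring)).trans hsp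
    omega
  have hsk : (s * (s / 2)).Coprime p := by
    refine Nat.Coprime.mul_left ((Nat.coprime_primes hs hp).2 (by omega)) ?_
    refine (hp.coprime_iff_not_dvd.2 fun h => ?_).symm
    rcases eq_or_ne p 2 with rfl | hp2'
    · omega
    have h1 : (p : ℤ) ∣ (s : ℤ) - 1 := by
      have := Int.natCast_dvd_natCast.2 (h.mul_left 2)
      rwa [show 2 * (s / 2) = s - 1 by omega, Nat.cast_sub hs.one_le, Nat.cast_one] at this
    have h2 := dvd_sub ((Dvd.intro_left (4 : ℤ) (by push_cast; ring)).trans hsp) h1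
    rw [show (s : ℤ) - -1 - ((s : ℤ) - 1) = 2 by ring] at h2
    have : p ∣ 2 := by exact_mod_cast h2
    have := Nat.le_of_dvd two_pos this
    omega
  -- `-r` is a square modulo `s`
  haveI : Fact s.Prime := ⟨hs⟩
  have hrs : IsSquare (((-(r : ℤ)) : ℤ) : ZMod s) := by
    have hsr0 : IsSquare (s : ZMod r) := by rw [hsr']; exact hTsq
    have hns : ¬ IsSquare (r : ZMod s) :=
      (ZMod.exists_sq_eq_prime_iff_of_mod_four_eq_three (p := r) (q := s) hr4 hs4 (by omega)).1 hsr0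
    have hneg' : ¬ IsSquare (-1 : ZMod s) := by
      rw [ZMod.exists_sq_eq_neg_one_iff]; simpa using hs4
    have hs2 : ringChar (ZMod s) ≠ 2 := by rw [ZMod.ringChar_zmod_n]; omega
    have hr0 : (r : ZMod s) ≠ 0 := fun h => by simp [h] at hns
    have h3 : quadraticChar (ZMod s) (-1 * (r : ZMod s)) = 1 := by
      rw [map_mul, quadraticChar_neg_one_iff_not_isSquare.2 hneg',
        quadraticChar_neg_one_iff_not_isSquare.2 hns]
      rfl
    have := (quadraticChar_one_iff_isSquare (mul_ne_zero (by simp) hr0)).1 h3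
    simpa using this
  -- an element with first row `(-r, M ε)` and lower left entry in `M s²`
  have hcop : IsCoprime (-(r : ℤ)) ((M : ℤ) * ε * ((M : ℤ) * (s : ℤ) ^ 2)) := by
    have hrMn : r.Coprime M := hr.coprime_iff_not_dvd.2 fun h => by
      have := Nat.le_of_dvd hM0 h
      have : M ≤ 4 * p * M ^ 2 := le_trans (Nat.le_self_pow two_ne_zero M) (Nat.le_mul_of_pos_left _ (by positivity))
      omega
    have h1 : IsCoprime (r : ℤ) (M : ℤ) := Int.isCoprime_iff_nat_coprime.2 (by simpa using hrMn)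
    have h2 : IsCoprime (r : ℤ) (s : ℤ) :=
      Int.isCoprime_iff_nat_coprime.2 (by simpa using (Nat.coprime_primes hr hs).2 (by omega))
    exact ((h1.mul_right ⟨0, ε, by linear_combination hε⟩).mul_right
      (h1.mul_right h2.pow_right)).neg_left
  obtain ⟨u, v, huv⟩ := hcop
  set w : SL(2, ℚ) := mkSL (-(r : ℚ)) ((M : ℚ) * ε) (-((v : ℚ) * (M * (s : ℚ) ^ 2))) (u : ℚ)
    (by
      have huv' : (u : ℚ) * -(r : ℚ) + v * ((M : ℚ) * ε * ((M : ℚ) * (s : ℚ) ^ 2)) = 1 := by
        exact_mod_cast huv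
      linear_combination huv') with hw
  have hra : -(r : ℚ) - 1 ∈ qMul q (M ^ 2) := by
    have hd : ((M ^ 2 : ℕ) : ℤ) ∣ -(r : ℤ) - 1 := by
      push_cast
      rw [show -(r : ℤ) - 1 = -((r : ℤ) + 1) by ring]
      exact hrM.neg_right
    have := intCast_mem_qMul (q := q) hd
    push_cast at this
    exact this
  have hraM : -(r : ℚ) - 1 ∈ qMul q M := qMul_mono (dvd_pow_self M two_ne_zero) hra
  have hMε : (M : ℚ) * ε ∈ qMul q M :=
    mul_one_mem_qMul (natCast_mem_qMul M) (intCast_mem_qMul_one ε)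
  have hwc : -((v : ℚ) * (M * (s : ℚ) ^ 2)) ∈ qMul q (M * s ^ 2) := by
    refine neg_mem (one_mul_mem_qMul (intCast_mem_qMul_one v) ?_)
    have := natCast_mem_qMul (q := q) (M * s ^ 2)
    push_cast at this
    exact this
  have hwmem : w ∈ GMc q M (M * s ^ 2) := by
    refine ⟨⟨by simpa [hw] using hraM, by simpa [hw] using hMε,
      by simpa [hw] using qMul_mono (dvd_mul_right _ _) hwc, ?_⟩, by simpa [hw] using hwc⟩
    obtain ⟨t, ht⟩ := hrM
    simp only [hw, mkSL_11]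
    have hd : (M : ℤ) ∣ u - 1 :=
      ⟨v * ε * ((M : ℤ) * (s : ℤ) ^ 2) * (-1) + u * M * t, by linear_combination huv + u * ht⟩
    have := intCast_mem_qMul (q := q) hd
    push_cast at this
    exact this
  -- `f w = 0`
  obtain ⟨t, ht⟩ := hrM
  have htM : -((M : ℚ) * ε * t) ∈ qMul q M := neg_mem (mul_one_mem_qMul hMε (intCast_mem_qMul_one t))
  have hw0 : f w = 0 := by
    rw [hf.eq_of_row_eq (y := uMat ((M : ℚ) * ε) * lMat (-((M : ℚ) * ε * t))) hwmem.1
      (mul_mem (uMat_mem_GM hMε) (lMat_mem_GM htM)) ?_ ?_,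
      hf.map_mul_lMat (uMat_mem_GM hMε) htM, hf.map_uMat hMε]
    · have ht' : (r : ℚ) + 1 = (M : ℚ) ^ 2 * t := by exact_mod_cast ht
      have hε' : (ε : ℚ) * ε = 1 := by exact_mod_cast hε
      simp only [hw, mul_entry, uMat, lMat, mkSL_00, mkSL_01, mkSL_10, mkSL_11]
      linear_combination -ht' + (M : ℚ) ^ 2 * t * hε'
    · simp [hw, mul_entry, uMat, lMat]
  have hs0 : (s : ℚ) ≠ 0 := Nat.cast_ne_zero.2 hs.ne_zero
  have hwconj : (s * (s / 2)) • f (hMat (s : ℚ) hs0 * w * (hMat (s : ℚ) hs0)⁻¹) = 0 := by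
    have := map_conj_prime hM0 hMq hf hs (by omega) (by omega) hsM hwmem
      (by simpa [hw] using hra) (z := -(r : ℤ)) (by simp [hw]) hrs
    rwa [hw0, sub_zero] at this
  refine ⟨s * (s / 2), hsk, ?_⟩
  -- compare with `y`
  obtain ⟨m, hm⟩ : (r : ℤ) ∣ (ε * (s : ℤ) ^ 2 - β) := by
    rw [← ZMod.intCast_zmod_eq_zero_iff_dvd]
    push_cast
    rw [hsr', hT, sub_self]
  have hmM : -((M : ℚ) * m) ∈ qMul q M :=
    neg_mem (mul_one_mem_qMul (natCast_mem_qMul M) (intCast_mem_qMul_one m))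
  suffices heq : f y = f (hMat (s : ℚ) hs0 * w * (hMat (s : ℚ) hs0)⁻¹) by rw [heq, hwconj]
  rw [← hf.map_mul_uMat hy hmM]
  obtain ⟨h00, h01, h10, h11⟩ := hMat_conj (s : ℚ) hs0 w
  have hconjmem : hMat (s : ℚ) hs0 * w * (hMat (s : ℚ) hs0)⁻¹ ∈ GM q M := by
    refine ⟨by rw [h00]; exact hwmem.1.1, ?_, ?_, by rw [h11]; exact hwmem.1.2.2.2⟩
    · rw [h01]
      exact one_mul_mem_qMul (pow_mem_qMul_one (natCast_mem_qMul_one s) 2) hwmem.1.2.1
    · rw [h10]
      have := div_natCast_mem_qMul (pow_ne_zero 2 hs.ne_zero) (q := q) (M := M) hwmem.2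
      push_cast at this
      exact this
  refine hf.eq_of_row_eq (mul_mem hy (uMat_mem_GM hmM)) hconjmem ?_ ?_
  · rw [mul_entry, h00]
    simp [hw, uMat, hy00]
  · rw [mul_entry, h01]
    simp only [hw, uMat, mkSL_01, mkSL_11, hy00, hy01]
    have hm' : (ε : ℚ) * (s : ℚ) ^ 2 - β = r * m := by exact_mod_cast hm
    linear_combination -(M : ℚ) * hm'

/-- Homomorphisms killing unipotents vanish on a congruence subgroup. -/
theorem GoodHom.eq_zero_of_mem_GM [hq : Fact q.Prime] (hM2 : 2 ≤ M) (hMq : M.Coprime q)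
    (hf : GoodHom q M f) {x : SL(2, ℚ)} (hx : x ∈ GM q (M ^ 2)) : f x = 0 := by
  by_contra h
  have hne : addOrderOf (f x) ≠ 1 := fun h1 => h (AddMonoid.addOrderOf_eq_one_iff.1 h1)
  obtain ⟨k, hk, hk0⟩ := hf.exists_coprime_smul_eq_zero (Nat.minFac_prime hne) hM2 hMq hx
  have hdvd := (Nat.minFac_dvd _).trans (addOrderOf_dvd_iff_nsmul_eq_zero.2 hk0)
  have hp := Nat.minFac_prime hne
  exact hp.ne_one (Nat.Coprime.eq_one_of_dvd hk.symm hdvd)

end FermatLib.Modular.Ihara
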