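import Fermat.Agent.Modular.Ihara.GoodHom
import Mathlib.NumberTheory.ModularForms.CongruenceSubgroups

/-!
# The two vertex groups `Γ₀(N)` and `α⁻¹ Γ₀(N) α` inside `SL₂(ℤ[1/q])`
-/

set_option autoImplicit false
set_option linter.unusedSimpArgs false

namespace FermatLib.Modular.Ihara

open scoped MatrixGroups
open CongruenceSubgroup

variable {N q : ℕ}

/-- `γ ↦ α γ α⁻¹ = (a, q b; c / q, d)` from `Γ₀(N q)` to `Γ₀(N)`, `α = diag(q, 1)`. -/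
def alphaConj (N q : ℕ) (γ : Gamma0 (N * q)) : Gamma0 N :=
  ⟨⟨!![(γ : SL(2, ℤ)) 0 0, (q : ℤ) * (γ : SL(2, ℤ)) 0 1;
      (γ : SL(2, ℤ)) 1 0 / (q : ℤ), (γ : SL(2, ℤ)) 1 1], by
    have hd := (γ : SL(2, ℤ)).det_coe
    rw [Matrix.det_fin_two] at hd
    have hc : ((N * q : ℕ) : ℤ) ∣ (γ : SL(2, ℤ)) 1 0 :=
      (ZMod.intCast_zmod_eq_zero_iff_dvd _ _).1 (Gamma0_mem.1 γ.2)
    have h := Int.ediv_mul_cancel ((Int.natCast_dvd_natCast.2 (dvd_mul_left q N)).trans hc)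
    rw [Matrix.det_fin_two_of]
    linear_combination hd - (γ : SL(2, ℤ)) 0 1 * h⟩, by
    have hc : ((N * q : ℕ) : ℤ) ∣ (γ : SL(2, ℤ)) 1 0 :=
      (ZMod.intCast_zmod_eq_zero_iff_dvd _ _).1 (Gamma0_mem.1 γ.2)
    rw [Gamma0_mem]
    show ((((γ : SL(2, ℤ)) 1 0 / (q : ℤ) : ℤ)) : ZMod N) = 0
    rw [ZMod.intCast_zmod_eq_zero_iff_dvd]
    obtain ⟨t, ht⟩ := hc
    rcases eq_or_ne q 0 with rfl | hq
    · simp
    · refine ⟨t, ?_⟩
      rw [ht, Nat.cast_mul, show (N : ℤ) * q * t = (N : ℤ) * t * q by ring,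
        Int.mul_ediv_cancel _ (Int.natCast_ne_zero.2 hq)]⟩

/-- The inclusion `Γ₀(N q) → Γ₀(N)`. -/
def levelIncl (N q : ℕ) (γ : Gamma0 (N * q)) : Gamma0 N :=
  ⟨γ, by
    have h := (ZMod.intCast_zmod_eq_zero_iff_dvd _ _).1 (Gamma0_mem.1 γ.2)
    exact Gamma0_mem.2 ((ZMod.intCast_zmod_eq_zero_iff_dvd _ _).2
      ((Int.natCast_dvd_natCast.2 (dvd_mul_right N q)).trans h))⟩

theorem dvd_lowerLeft (γ : Gamma0 N) : (N : ℤ) ∣ (γ : SL(2, ℤ)) 1 0 :=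
  (ZMod.intCast_zmod_eq_zero_iff_dvd _ _).1 (Gamma0_mem.1 γ.2)

theorem det_int (γ : SL(2, ℤ)) : γ 0 0 * γ 1 1 - γ 0 1 * γ 1 0 = 1 := by
  rw [← Matrix.det_fin_two]
  exact γ.2

theorem det_int_cast (γ : SL(2, ℤ)) :
    (γ 0 0 : ℚ) * γ 1 1 - (γ 0 1 : ℚ) * γ 1 0 = 1 := by
  exact_mod_cast det_int γ

theorem int_ext {x y : SL(2, ℤ)} (h00 : x 0 0 = y 0 0) (h01 : x 0 1 = y 0 1)
    (h10 : x 1 0 = y 1 0) (h11 : x 1 1 = y 1 1) : x = y := by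
  apply Matrix.SpecialLinearGroup.ext
  intro i j
  fin_cases i <;> fin_cases j <;> assumption

theorem mul_entry_int (x y : SL(2, ℤ)) (i j : Fin 2) :
    (x * y) i j = x i 0 * y 0 j + x i 1 * y 1 j := by
  rw [Matrix.SpecialLinearGroup.coe_mul, Matrix.mul_apply, Fin.sum_univ_two]

/-- `Γ₀(N) → SL₂(ℚ)`. -/
def gQ (N : ℕ) : Gamma0 N →* SL(2, ℚ) :=
  (Matrix.SpecialLinearGroup.map (Int.castRingHom ℚ)).comp (Gamma0 N).subtype

@[simp] theorem gQ_apply (γ : Gamma0 N) (i j : Fin 2) :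
    gQ N γ i j = ((γ : SL(2, ℤ)) i j : ℚ) := rfl

theorem gQ_injective : Function.Injective (gQ N) := fun x y h => by
  apply Subtype.ext
  apply Matrix.SpecialLinearGroup.ext
  intro i j
  exact Int.cast_injective (α := ℚ) (by simpa using congrArg (fun g : SL(2, ℚ) => g i j) h)

/-- `δ ↦ α⁻¹ δ α = (a, b / q; q c, d)`. -/
def aQ (N q : ℕ) [hq : Fact q.Prime] : Gamma0 N →* SL(2, ℚ) where
  toFun δ := mkSL ((δ : SL(2, ℤ)) 0 0 : ℚ) (((δ : SL(2, ℤ)) 0 1 : ℚ) / q)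
    ((q : ℚ) * ((δ : SL(2, ℤ)) 1 0 : ℚ)) ((δ : SL(2, ℤ)) 1 1 : ℚ) (by
      have h : (q : ℚ) ≠ 0 := Nat.cast_ne_zero.2 hq.out.ne_zero
      field_simp
      linear_combination det_int_cast (δ : SL(2, ℤ)))
  map_one' := by apply sl_ext <;> simp
  map_mul' x y := by
    have h : (q : ℚ) ≠ 0 := Nat.cast_ne_zero.2 hq.out.ne_zero
    apply sl_ext <;>
      simp only [mul_entry, mkSL_00, mkSL_01, mkSL_10, mkSL_11, Subgroup.coe_mul,
        mul_entry_int] <;>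
      push_cast <;> field_simp

section aQ

variable [hq : Fact q.Prime] (δ : Gamma0 N)

@[simp] theorem aQ_00 : aQ N q δ 0 0 = ((δ : SL(2, ℤ)) 0 0 : ℚ) := rfl
@[simp] theorem aQ_01 : aQ N q δ 0 1 = ((δ : SL(2, ℤ)) 0 1 : ℚ) / q := rfl
@[simp] theorem aQ_10 : aQ N q δ 1 0 = (q : ℚ) * ((δ : SL(2, ℤ)) 1 0 : ℚ) := rfl
@[simp] theorem aQ_11 : aQ N q δ 1 1 = ((δ : SL(2, ℤ)) 1 1 : ℚ) := rfl

theorem aQ_injective : Function.Injective (aQ N q) := fun x y h => by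
  have hqQ : (q : ℚ) ≠ 0 := Nat.cast_ne_zero.2 hq.out.ne_zero
  have e := fun i j => congrArg (fun g : SL(2, ℚ) => g i j) h
  apply Subtype.ext
  apply int_ext <;> apply Int.cast_injective (α := ℚ)
  · simpa using e 0 0
  · simpa [hqQ, div_left_inj'] using e 0 1
  · simpa [hqQ] using e 1 0
  · simpa using e 1 1

theorem gQ_levelIncl (γ : Gamma0 (N * q)) : gQ N (levelIncl N q γ) = aQ N q (alphaConj N q γ) := by
  have hqQ : (q : ℚ) ≠ 0 := Nat.cast_ne_zero.2 hq.out.ne_zero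
  have hc : (q : ℤ) ∣ (γ : SL(2, ℤ)) 1 0 :=
    (Int.natCast_dvd_natCast.2 (dvd_mul_left q N)).trans (dvd_lowerLeft γ)
  apply sl_ext <;> simp only [gQ_apply, aQ_00, aQ_01, aQ_10, aQ_11, levelIncl, alphaConj]
  · rfl
  · show _ = (((q : ℤ) * (γ : SL(2, ℤ)) 0 1 : ℤ) : ℚ) / q
    push_cast
    field_simp
  · show _ = (q : ℚ) * (((γ : SL(2, ℤ)) 1 0 / (q : ℤ) : ℤ) : ℚ)
    rw [Int.cast_div hc (by exact_mod_cast hq.out.ne_zero)]
    push_cast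
    field_simp
  · rfl

end aQ

/-- `{g ∈ SL₂(ℤ[1/q]) | c ∈ N ℤ[1/q]}`. -/
def G0R (q N : ℕ) : Subgroup SL(2, ℚ) where
  carrier := {x | (∀ i j, x i j ∈ qMul q 1) ∧ x 1 0 ∈ qMul q N}
  one_mem' := by
    refine ⟨fun i j => ?_, by simp [zero_mem]⟩
    fin_cases i <;> fin_cases j <;> simp [zero_mem, one_mem_qMul_one]
  mul_mem' := by
    rintro x y ⟨hx, hx'⟩ ⟨hy, hy'⟩
    refine ⟨fun i j => ?_, ?_⟩
    · rw [mul_entry]
      exact add_mem (mul_mem_qMul_one (hx i 0) (hy 0 j)) (mul_mem_qMul_one (hx i 1) (hy 1 j))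
    · rw [mul_entry]
      exact add_mem (mul_one_mem_qMul hx' (hy 0 0)) (one_mul_mem_qMul (hx 1 1) hy')
  inv_mem' := by
    rintro x ⟨hx, hx'⟩
    refine ⟨fun i j => ?_, by rw [inv_10]; exact neg_mem hx'⟩
    fin_cases i <;> fin_cases j
    · simpa [inv_00] using hx 1 1
    · simpa [inv_01] using hx 0 1
    · simpa [inv_10] using hx 1 0
    · simpa [inv_11] using hx 0 0

theorem gQ_mem_G0R (γ : Gamma0 N) : gQ N γ ∈ G0R q N :=
  ⟨fun i j => by rw [gQ_apply]; exact intCast_mem_qMul_one _,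
    by rw [gQ_apply]; exact intCast_mem_qMul (dvd_lowerLeft γ)⟩

theorem aQ_mem_G0R [hq : Fact q.Prime] (δ : Gamma0 N) : aQ N q δ ∈ G0R q N := by
  refine ⟨fun i j => ?_, ?_⟩
  · fin_cases i <;> fin_cases j
    · exact intCast_mem_qMul_one _
    · show ((δ : SL(2, ℤ)) 0 1 : ℚ) / q ∈ qMul q 1
      have := mul_mem_qMul_one (intCast_mem_qMul_one (q := q) ((δ : SL(2, ℤ)) 0 1))
        (qpow_zpow_mem_qMul_one hq.out.ne_zero (-1))
      simpa [div_eq_mul_inv, _root_.zpow_neg_one] using this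
    · exact mul_mem_qMul_one (natCast_mem_qMul_one q) (intCast_mem_qMul_one _)
    · exact intCast_mem_qMul_one _
  · exact one_mul_mem_qMul (natCast_mem_qMul_one q) (intCast_mem_qMul (dvd_lowerLeft δ))

theorem GM_le_G0R {M : ℕ} (h : N ∣ M) : GM q M ≤ G0R q N :=
  fun _ hx => ⟨entries_qMul_one_of_GM hx, qMul_mono h hx.2.2.1⟩

end FermatLib.Modular.Ihara
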