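import Fermat.Agent.Modular.Ihara.Embedding

/-!
# A pair in the kernel of the degeneracy map glues to a homomorphism of `G0R q N`

This replaces the amalgam decomposition of `SL₂(ℤ[1/q])`: everything is computed with the
decomposition `G0R q N = Γ₀(N) · B`.
-/

set_option autoImplicit false
set_option linter.unusedSimpArgs false

namespace FermatLib.Modular.Ihara

open scoped MatrixGroups
open CongruenceSubgroup

variable {A : Type*} [AddCommGroup A] {N q : ℕ} [hq : Fact q.Prime]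
  {φ ψ : Additive (Gamma0 N) →+ A}

/-- The pair is in the kernel of the degeneracy map. -/
def KerPair (N q : ℕ) (φ ψ : Additive (Gamma0 N) →+ A) : Prop :=
  ∀ γ : Gamma0 (N * q),
    φ (Additive.ofMul (levelIncl N q γ)) + ψ (Additive.ofMul (alphaConj N q γ)) = 0

theorem qQ_ne_zero : (q : ℚ) ≠ 0 := Nat.cast_ne_zero.2 hq.out.ne_zero

/-- The upper triangular elements `diag(q^i, q^-i) u(y)`. -/
def bEl (q : ℕ) [hq : Fact q.Prime] (i : ℤ) (y : ℚ) : SL(2, ℚ) :=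
  hMat ((q : ℚ) ^ i) (zpow_ne_zero i (Nat.cast_ne_zero.2 hq.out.ne_zero)) * uMat y

theorem bEl_entries (i : ℤ) (y : ℚ) :
    bEl q i y 0 0 = (q : ℚ) ^ i ∧ bEl q i y 0 1 = (q : ℚ) ^ i * y ∧
      bEl q i y 1 0 = 0 ∧ bEl q i y 1 1 = (q : ℚ) ^ (-i) := by
  refine ⟨?_, ?_, ?_, ?_⟩ <;> simp [bEl, mul_entry, hMat, uMat, _root_.zpow_neg]

theorem bEl_mul (i j : ℤ) (y z : ℚ) :
    bEl q i y * bEl q j z = bEl q (i + j) ((q : ℚ) ^ (-(2 * j)) * y + z) := by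
  have h := qQ_ne_zero (q := q)
  obtain ⟨a1, a2, a3, a4⟩ := bEl_entries (q := q) i y
  obtain ⟨b1, b2, b3, b4⟩ := bEl_entries (q := q) j z
  obtain ⟨c1, c2, c3, c4⟩ := bEl_entries (q := q) (i + j) ((q : ℚ) ^ (-(2 * j)) * y + z)
  apply sl_ext
  · rw [mul_entry, a1, a2, b1, b3, c1, zpow_add₀ h]
    ring
  · rw [mul_entry, a1, a2, b2, b4, c2, zpow_add₀ h, _root_.zpow_neg, _root_.zpow_neg, two_mul,
      zpow_add₀ h]
    field_simp
    ring
  · rw [mul_entry, a3, a4, b1, b3, c3]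
    ring
  · rw [mul_entry, a3, a4, b2, b4, c4, neg_add, zpow_add₀ h]
    ring

/-- `n ↦ u(n)` inside `Γ₀(N)`. -/
def uInt (N : ℕ) (n : ℤ) : Gamma0 N :=
  ⟨⟨!![1, n; 0, 1], by rw [Matrix.det_fin_two_of]; ring⟩, by
    rw [Gamma0_mem]; show ((0 : ℤ) : ZMod N) = 0; simp⟩

@[simp] theorem uInt_00 (n : ℤ) : (uInt N n : SL(2, ℤ)) 0 0 = 1 := rfl
@[simp] theorem uInt_01 (n : ℤ) : (uInt N n : SL(2, ℤ)) 0 1 = n := rfl
@[simp] theorem uInt_10 (n : ℤ) : (uInt N n : SL(2, ℤ)) 1 0 = 0 := rfl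
@[simp] theorem uInt_11 (n : ℤ) : (uInt N n : SL(2, ℤ)) 1 1 = 1 := rfl

theorem uInt_add (m n : ℤ) : uInt N (m + n) = uInt N m * uInt N n := by
  apply Subtype.ext
  apply int_ext <;> simp [mul_entry_int, add_comm]

theorem gQ_uInt (n : ℤ) : gQ N (uInt N n) = uMat (n : ℚ) := by
  apply sl_ext <;> simp [uMat]

theorem bEl_zero (y : ℚ) : bEl q 0 y = uMat y := by
  obtain ⟨a1, a2, a3, a4⟩ := bEl_entries (q := q) 0 y
  apply sl_ext <;> simp [a1, a2, a3, a4, uMat]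

theorem aQ_uInt (n : ℤ) : aQ N q (uInt N n) = uMat ((n : ℚ) / q) := by
  apply sl_ext <;> simp [uMat]

theorem map_uInt (φ : Additive (Gamma0 N) →+ A) (n : ℤ) :
    φ (Additive.ofMul (uInt N n)) = n • φ (Additive.ofMul (uInt N 1)) := by
  let g : ℤ →+ A := AddMonoidHom.mk' (fun m => φ (Additive.ofMul (uInt N m))) fun a b => by
    show φ (Additive.ofMul (uInt N (a + b))) = _
    rw [uInt_add, ofMul_mul, map_add]
  show g n = n • g 1
  conv_lhs => rw [show n = n • (1 : ℤ) by simp]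
  rw [map_zsmul]

theorem map_mul' (φ : Additive (Gamma0 N) →+ A) (x y : Gamma0 N) :
    φ (Additive.ofMul (x * y)) = φ (Additive.ofMul x) + φ (Additive.ofMul y) := by
  rw [ofMul_mul, map_add]

theorem map_inv' (φ : Additive (Gamma0 N) →+ A) (x : Gamma0 N) :
    φ (Additive.ofMul x⁻¹) = -φ (Additive.ofMul x) := by
  rw [ofMul_inv, map_neg]

/-- An element of both vertex groups comes from `Γ₀(N q)`. -/
theorem value_eq_of_gQ_eq_aQ (hK : KerPair N q φ ψ) (hqN : ¬ q ∣ N) {γ δ : Gamma0 N}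
    (h : gQ N γ = aQ N q δ) : φ (Additive.ofMul γ) = -ψ (Additive.ofMul δ) := by
  have e := congrArg (fun g : SL(2, ℚ) => g 1 0) h
  simp only [gQ_apply, aQ_10] at e
  have e' : (γ : SL(2, ℤ)) 1 0 = (q : ℤ) * (δ : SL(2, ℤ)) 1 0 := by exact_mod_cast e
  have hmem : (γ : SL(2, ℤ)) ∈ Gamma0 (N * q) := by
    refine Gamma0_mem.2 ((ZMod.intCast_zmod_eq_zero_iff_dvd _ _).2 ?_)
    rw [Nat.cast_mul]
    exact (Int.isCoprime_iff_nat_coprime.2
      (by simpa using ((hq.out.coprime_iff_not_dvd.2 hqN).symm))).mul_dvd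
      (dvd_lowerLeft γ) ⟨_, e'⟩
  have h1 : levelIncl N q ⟨γ, hmem⟩ = γ := rfl
  have h2 : alphaConj N q ⟨γ, hmem⟩ = δ := aQ_injective (by rw [← gQ_levelIncl, h1, h])
  have h3 := hK ⟨γ, hmem⟩
  rw [h1, h2] at h3
  exact eq_neg_of_add_eq_zero_left h3

/-- Two factorisations `γ₁ (α⁻¹ δ α) γ₂ = α⁻¹ δ₂ α` have the same value. -/
theorem value_eq (hK : KerPair N q φ ψ) (hqN : ¬ q ∣ N) {γ₁ δ γ₂ δ₂ : Gamma0 N}
    (h : gQ N γ₁ * aQ N q δ * gQ N γ₂ = aQ N q δ₂) :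
    φ (Additive.ofMul γ₁) - ψ (Additive.ofMul δ) + φ (Additive.ofMul γ₂) =
      -ψ (Additive.ofMul δ₂) := by
  have hqQ := qQ_ne_zero (q := q)
  have hcop : IsCoprime (N : ℤ) (q : ℤ) := Int.isCoprime_iff_nat_coprime.2
    (by simpa using (hq.out.coprime_iff_not_dvd.2 hqN).symm)
  by_cases hb : (q : ℤ) ∣ (δ : SL(2, ℤ)) 0 1
  · obtain ⟨b, hb⟩ := hb
    obtain ⟨γ₀, hγ₀⟩ : ∃ γ₀ : Gamma0 N, gQ N γ₀ = aQ N q δ := by
      refine ⟨⟨⟨!![(δ : SL(2, ℤ)) 0 0, b; (q : ℤ) * (δ : SL(2, ℤ)) 1 0, (δ : SL(2, ℤ)) 1 1],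
        ?_⟩, ?_⟩, ?_⟩
      · rw [Matrix.det_fin_two_of]
        linear_combination det_int (δ : SL(2, ℤ)) + (δ : SL(2, ℤ)) 1 0 * hb
      · rw [Gamma0_mem]
        show (((q : ℤ) * (δ : SL(2, ℤ)) 1 0 : ℤ) : ZMod N) = 0
        rw [ZMod.intCast_zmod_eq_zero_iff_dvd]
        exact (dvd_lowerLeft δ).mul_left _
      · apply sl_ext <;> simp only [gQ_apply, aQ_00, aQ_01, aQ_10, aQ_11]
        · rfl
        · show (b : ℚ) = _
          rw [hb]
          push_cast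
          field_simp
        · show (((q : ℤ) * (δ : SL(2, ℤ)) 1 0 : ℤ) : ℚ) = _
          push_cast
          rfl
        · rfl
    rw [← hγ₀, ← map_mul, ← map_mul] at h
    have := value_eq_of_gQ_eq_aQ hK hqN h
    rw [map_mul', map_mul', value_eq_of_gQ_eq_aQ hK hqN hγ₀] at this
    rw [← this]
    abel
  · haveI : Fact q.Prime := hq
    have key : ∀ i j : Fin 2, (((γ₁ : SL(2, ℤ)) i 0 : ZMod q) * ((δ : SL(2, ℤ)) 0 1 : ZMod q)) *
        ((γ₂ : SL(2, ℤ)) 1 j : ZMod q) =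
        (!![0, ((δ₂ : SL(2, ℤ)) 0 1 : ZMod q); 0, 0] : Matrix (Fin 2) (Fin 2) (ZMod q)) i j := by
      intro i j
      have e := congrArg (fun g : SL(2, ℚ) => g i j) h
      simp only [mul_entry, gQ_apply, aQ_00, aQ_01, aQ_10, aQ_11] at e
      set x0 := (γ₁ : SL(2, ℤ)) i 0
      set x1 := (γ₁ : SL(2, ℤ)) i 1
      set y0 := (γ₂ : SL(2, ℤ)) 0 j
      set y1 := (γ₂ : SL(2, ℤ)) 1 j
      obtain ⟨r, hr, hr'⟩ : ∃ r : ℤ, (aQ N q δ₂ i j) * q = (r : ℚ) ∧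
          (r : ZMod q) = (!![0, ((δ₂ : SL(2, ℤ)) 0 1 : ZMod q); 0, 0] :
            Matrix (Fin 2) (Fin 2) (ZMod q)) i j := by
        fin_cases i <;> fin_cases j
        · exact ⟨(δ₂ : SL(2, ℤ)) 0 0 * q, by simp, by simp⟩
        · exact ⟨(δ₂ : SL(2, ℤ)) 0 1, by simp [hqQ], by simp⟩
        · exact ⟨q * (δ₂ : SL(2, ℤ)) 1 0 * q, by simp, by simp⟩
        · exact ⟨(δ₂ : SL(2, ℤ)) 1 1 * q, by simp, by simp⟩
      have e2 : (((x0 * ((δ : SL(2, ℤ)) 0 0 * q) + x1 * (q * (δ : SL(2, ℤ)) 1 0 * q)) * y0 +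
          (x0 * (δ : SL(2, ℤ)) 0 1 + x1 * ((δ : SL(2, ℤ)) 1 1 * q)) * y1 : ℤ) : ℚ) = r := by
        rw [← hr, ← e]
        push_cast
        field_simp
      have e3 := congrArg (fun z : ℤ => (z : ZMod q)) (Int.cast_injective e2)
      push_cast at e3
      simp only [ZMod.natCast_self, mul_zero, zero_mul, add_zero, zero_add] at e3
      rw [← hr', ← e3]
    have hb0 : ((δ : SL(2, ℤ)) 0 1 : ZMod q) ≠ 0 := by
      rwa [Ne, ZMod.intCast_zmod_eq_zero_iff_dvd]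
    have d1 := congrArg (fun z : ℤ => (z : ZMod q)) (det_int (γ₁ : SL(2, ℤ)))
    have d2 := congrArg (fun z : ℤ => (z : ZMod q)) (det_int (γ₂ : SL(2, ℤ)))
    push_cast at d1 d2
    have k00 := key 0 0
    have k10 := key 1 0
    have k11 := key 1 1
    simp at k00 k10 k11
    have hx : ((γ₁ : SL(2, ℤ)) 1 0 : ZMod q) = 0 := by
      by_contra hx
      have h1 : ((γ₂ : SL(2, ℤ)) 1 0 : ZMod q) = 0 := by simpa [hb0, hx] using k10
      have h2 : ((γ₂ : SL(2, ℤ)) 1 1 : ZMod q) = 0 := by simpa [hb0, hx] using k11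
      simp [h1, h2] at d2
    have hy : ((γ₂ : SL(2, ℤ)) 1 0 : ZMod q) = 0 := by
      have hx0 : ((γ₁ : SL(2, ℤ)) 0 0 : ZMod q) ≠ 0 := by
        intro h0
        simp [hx, h0] at d1
      simpa [hb0, hx0] using k00
    have lift : ∀ γ : Gamma0 N, ((γ : SL(2, ℤ)) 1 0 : ZMod q) = 0 →
        ∃ ε : Gamma0 N, gQ N γ = aQ N q ε := by
      intro γ hγ
      have hmem : (γ : SL(2, ℤ)) ∈ Gamma0 (N * q) := by
        refine Gamma0_mem.2 ((ZMod.intCast_zmod_eq_zero_iff_dvd _ _).2 ?_)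
        rw [Nat.cast_mul]
        exact hcop.mul_dvd (dvd_lowerLeft γ) ((ZMod.intCast_zmod_eq_zero_iff_dvd _ _).1 hγ)
      exact ⟨alphaConj N q ⟨γ, hmem⟩, gQ_levelIncl ⟨γ, hmem⟩⟩
    obtain ⟨ε₁, hε₁⟩ := lift γ₁ hx
    obtain ⟨ε₂, hε₂⟩ := lift γ₂ hy
    rw [value_eq_of_gQ_eq_aQ hK hqN hε₁, value_eq_of_gQ_eq_aQ hK hqN hε₂]
    rw [hε₁, hε₂, ← map_mul, ← map_mul] at h
    rw [← aQ_injective h, map_mul', map_mul']
    abel

/-- A fixed Bezout witness, giving `diag(q, 1/q) = P Q`. -/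
theorem exists_factor_hMat (hqN : ¬ q ∣ N) :
    ∃ P δ : Gamma0 N, gQ N P * aQ N q δ = bEl q 1 0 := by
  obtain ⟨u, v, huv⟩ : IsCoprime (q : ℤ) (N : ℤ) := Int.isCoprime_iff_nat_coprime.2
    (by simpa using hq.out.coprime_iff_not_dvd.2 hqN)
  refine ⟨⟨⟨!![(q : ℤ), v; -(N : ℤ), u], ?_⟩, ?_⟩, ⟨⟨!![u * q, -v; (N : ℤ), 1], ?_⟩, ?_⟩, ?_⟩
  · rw [Matrix.det_fin_two_of]; linear_combination huv
  · rw [Gamma0_mem]; show (((-(N : ℤ)) : ℤ) : ZMod N) = 0; simp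
  · rw [Matrix.det_fin_two_of]; linear_combination huv
  · rw [Gamma0_mem]; show (((N : ℤ)) : ZMod N) = 0; simp
  · have hqQ := qQ_ne_zero (q := q)
    have huv' : (u : ℚ) * q + v * N = 1 := by exact_mod_cast huv
    obtain ⟨a1, a2, a3, a4⟩ := bEl_entries (q := q) 1 0
    apply sl_ext
    · rw [mul_entry, a1, zpow_one]
      simp
      linear_combination (q : ℚ) * huv'
    · rw [mul_entry, a2]
      simp
      field_simp
      ring
    · rw [mul_entry, a3]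
      simp
      ring
    · rw [mul_entry, a4, _root_.zpow_neg, zpow_one]
      simp
      field_simp
      linear_combination huv'

/-- `φ (u (q² n)) = φ (u n)`. -/
theorem map_uInt_sq (hK : KerPair N q φ ψ) (hqN : ¬ q ∣ N) (n : ℤ) :
    φ (Additive.ofMul (uInt N ((q : ℤ) ^ 2 * n))) = φ (Additive.ofMul (uInt N n)) := by
  obtain ⟨P, δ, hPδ⟩ := exists_factor_hMat (q := q) (N := N) hqN
  have hqQ := qQ_ne_zero (q := q)
  have e : gQ N (P⁻¹ * uInt N (-((q : ℤ) ^ 2 * n)) * P) * aQ N q δ * gQ N (uInt N n) =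
      aQ N q δ := by
    rw [map_mul, map_mul, map_inv, gQ_uInt, gQ_uInt]
    have hh : bEl q 1 0 * uMat (n : ℚ) = uMat (((q : ℤ) ^ 2 * n : ℤ) : ℚ) * bEl q 1 0 := by
      obtain ⟨a1, a2, a3, a4⟩ := bEl_entries (q := q) 1 0
      apply sl_ext <;> simp [mul_entry, uMat, a1, a2, a3, a4]
      field_simp
    calc (gQ N P)⁻¹ * uMat ((-((q : ℤ) ^ 2 * n) : ℤ) : ℚ) * gQ N P * aQ N q δ * uMat (n : ℚ)
        = (gQ N P)⁻¹ * uMat ((-((q : ℤ) ^ 2 * n) : ℤ) : ℚ) *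
            ((gQ N P * aQ N q δ) * uMat (n : ℚ)) := by group
      _ = aQ N q δ := by
        rw [hPδ, hh, ← mul_assoc, mul_assoc ((gQ N P)⁻¹), uMat_mul_uMat, ← hPδ]
        push_cast
        rw [neg_add_cancel, uMat_zero, mul_one, inv_mul_cancel_left]
  have := value_eq hK hqN e
  rw [map_mul', map_mul', map_inv', map_uInt φ (-((q : ℤ) ^ 2 * n)), neg_zsmul,
    ← map_uInt] at this
  rw [← sub_eq_zero]
  calc φ (Additive.ofMul (uInt N ((q : ℤ) ^ 2 * n))) - φ (Additive.ofMul (uInt N n))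
      = -((-φ (Additive.ofMul P) + -φ (Additive.ofMul (uInt N ((q : ℤ) ^ 2 * n))) +
          φ (Additive.ofMul P) - ψ (Additive.ofMul δ) + φ (Additive.ofMul (uInt N n))) +
          ψ (Additive.ofMul δ)) := by abel
    _ = 0 := by rw [this]; abel

end FermatLib.Modular.Ihara
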