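import Fermat.Agent.Modular.Ihara.Glue

/-!
# The glued homomorphism on `G0R q N`
-/

set_option autoImplicit false
set_option linter.unusedSimpArgs false

namespace FermatLib.Modular.Ihara

open scoped MatrixGroups
open CongruenceSubgroup

variable {A : Type*} [AddCommGroup A] {N q : ℕ} [hq : Fact q.Prime]
  {φ ψ : Additive (Gamma0 N) →+ A}

/-- `G0R q N = Γ₀(N) · B`. -/
theorem exists_decomp (hqN : ¬ q ∣ N) {x : SL(2, ℚ)} (hx : x ∈ G0R q N) :
    ∃ (γ : Gamma0 N) (i : ℤ) (y : ℚ), y ∈ qMul q 1 ∧ x = gQ N γ * bEl q i y := by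
  have hqQ := qQ_ne_zero (q := q)
  obtain ⟨hent, hc⟩ := hx
  obtain ⟨ka, A₀, hA⟩ := hent 0 0
  obtain ⟨kc, C₀, hC⟩ := hent 1 0
  obtain ⟨kb, B₀, hB⟩ := hent 0 1
  obtain ⟨kd, D₀, hD⟩ := hent 1 1
  rw [Nat.cast_one, one_mul] at hA hC hB hD
  set k := ka + kc with hk
  set A' : ℤ := A₀ * q ^ kc with hA'
  set C' : ℤ := C₀ * q ^ ka with hC'
  have hA'' : x 0 0 * (q : ℚ) ^ k = A' := by
    rw [hA', hk]; push_cast; rw [← hA, pow_add]; ring
  have hC'' : x 1 0 * (q : ℚ) ^ k = C' := by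
    rw [hC', hk]; push_cast; rw [← hC, pow_add]; ring
  have hdetZ : A' * (D₀ * q ^ kb) - (B₀ * q ^ kd) * C' = (q : ℤ) ^ (k + kb + kd) := by
    have : (A' : ℚ) * (D₀ * (q : ℚ) ^ kb) - (B₀ * (q : ℚ) ^ kd) * C' =
        (q : ℚ) ^ (k + kb + kd) := by
      rw [← hA'', ← hC'', ← hD, ← hB, pow_add, pow_add]
      linear_combination ((q : ℚ) ^ k * (q : ℚ) ^ kb * (q : ℚ) ^ kd) * det_entries x
    exact_mod_cast this
  have hg : Int.gcd A' C' ∣ q ^ (k + kb + kd) := by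
    have h1 := dvd_sub ((Int.gcd_dvd_left A' C').mul_right (D₀ * q ^ kb))
      ((Int.gcd_dvd_right A' C').mul_left (B₀ * q ^ kd))
    rw [hdetZ] at h1
    exact_mod_cast h1
  obtain ⟨j, -, hj⟩ := (Nat.dvd_prime_pow hq.out).1 hg
  obtain ⟨a', ha'⟩ := Int.gcd_dvd_left A' C'
  obtain ⟨c', hc'⟩ := Int.gcd_dvd_right A' C'
  rw [hj, Nat.cast_pow] at ha' hc'
  have hcop : IsCoprime a' c' := by
    rw [Int.isCoprime_iff_gcd_eq_one]
    have h0 : Int.gcd A' C' = Int.gcd A' C' * Int.gcd a' c' := by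
      conv_lhs => rw [ha', hc', Int.gcd_mul_left]
      rw [hj, Int.natAbs_pow, Int.natAbs_natCast]
    have hpos : 0 < Int.gcd A' C' := by
      rw [hj]; exact pow_pos hq.out.pos _
    nlinarith
  set i : ℤ := (j : ℤ) - k with hi
  have hqi : (q : ℚ) ^ i = (q : ℚ) ^ j / (q : ℚ) ^ k := by
    rw [hi, zpow_sub₀ hqQ, zpow_natCast, zpow_natCast]
  have hxa : x 0 0 = (q : ℚ) ^ i * a' := by
    have : (A' : ℚ) = (q : ℚ) ^ j * a' := by exact_mod_cast ha'
    rw [hqi, div_mul_eq_mul_div, eq_div_iff (pow_ne_zero _ hqQ), hA'', this]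
  have hxc : x 1 0 = (q : ℚ) ^ i * c' := by
    have : (C' : ℚ) = (q : ℚ) ^ j * c' := by exact_mod_cast hc'
    rw [hqi, div_mul_eq_mul_div, eq_div_iff (pow_ne_zero _ hqQ), hC'', this]
  have hNc : (N : ℤ) ∣ c' := by
    refine (intCast_mem_qMul_iff (hq.out.coprime_iff_not_dvd.2 hqN).symm).1 ?_
    have := mul_one_mem_qMul hc (qpow_zpow_mem_qMul_one hq.out.ne_zero (-i))
    rwa [hxc, mul_right_comm, ← zpow_add₀ hqQ, add_neg_cancel, zpow_zero, one_mul] at this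
  obtain ⟨u, v, huv⟩ := hcop
  set γ : Gamma0 N := ⟨⟨!![a', -v; c', u], by
    rw [Matrix.det_fin_two_of]; linear_combination huv⟩, by
    rw [Gamma0_mem]
    show ((c' : ℤ) : ZMod N) = 0
    rwa [ZMod.intCast_zmod_eq_zero_iff_dvd]⟩ with hγ
  have huv' : (u : ℚ) * a' + v * c' = 1 := by exact_mod_cast huv
  set z := (gQ N γ)⁻¹ * x with hz
  have hzmem : z ∈ G0R q N := mul_mem (inv_mem (gQ_mem_G0R γ)) ⟨hent, hc⟩
  have z00 : z 0 0 = (q : ℚ) ^ i := by
    rw [hz, mul_entry, inv_00, inv_01, gQ_apply, gQ_apply, hxa, hxc]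
    simp only [hγ]
    simp
    linear_combination (q : ℚ) ^ i * huv'
  have z10 : z 1 0 = 0 := by
    rw [hz, mul_entry, inv_10, inv_11, gQ_apply, gQ_apply, hxa, hxc]
    simp only [hγ]
    simp
    ring
  have z11 : z 1 1 = (q : ℚ) ^ (-i) := by
    have := det_entries z
    rw [z00, z10, mul_zero, sub_zero] at this
    rw [_root_.zpow_neg]
    exact eq_inv_of_mul_eq_one_right this
  refine ⟨γ, i, z 0 1 * (q : ℚ) ^ (-i),
    mul_mem_qMul_one (hzmem.1 0 1) (qpow_zpow_mem_qMul_one hq.out.ne_zero _), ?_⟩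
  have hze : z = bEl q i (z 0 1 * (q : ℚ) ^ (-i)) := by
    obtain ⟨a1, a2, a3, a4⟩ := bEl_entries (q := q) i (z 0 1 * (q : ℚ) ^ (-i))
    apply sl_ext
    · rw [a1, z00]
    · rw [a2, _root_.zpow_neg]; field_simp
    · rw [a3, z10]
    · rw [a4, z11]
  rw [← hze, hz, mul_inv_cancel_left]

theorem bEl_eq_gQ {i : ℤ} {y : ℚ} {γ : Gamma0 N} (h : bEl q i y = gQ N γ) :
    i = 0 ∧ ∃ n : ℤ, y = n ∧ γ = uInt N n := by
  have hqQ := qQ_ne_zero (q := q)
  obtain ⟨a1, a2, a3, a4⟩ := bEl_entries (q := q) i y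
  rw [h] at a1 a2 a3 a4
  simp only [gQ_apply] at a1 a2 a3 a4
  have hone : (γ : SL(2, ℤ)) 0 0 * (γ : SL(2, ℤ)) 1 1 = 1 := by
    have : ((γ : SL(2, ℤ)) 0 0 : ℚ) * (γ : SL(2, ℤ)) 1 1 = 1 := by
      rw [a1, a4, ← zpow_add₀ hqQ, add_neg_cancel, zpow_zero]
    exact_mod_cast this
  have h1 : ((γ : SL(2, ℤ)) 0 0 : ℚ) = 1 := by
    rcases Int.eq_one_or_neg_one_of_mul_eq_one hone with h1 | h1
    · exact_mod_cast h1
    · exfalso
      have h0 : (0 : ℚ) < (q : ℚ) ^ i := zpow_pos (by exact_mod_cast hq.out.pos) i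
      rw [← a1, h1] at h0
      norm_num at h0
  rw [h1] at a1
  have hi : i = 0 :=
    (zpow_eq_one_iff_right₀ (by positivity) (by exact_mod_cast hq.out.ne_one)).1 a1.symm
  subst hi
  rw [zpow_zero, one_mul] at a2
  rw [neg_zero, zpow_zero] at a4
  refine ⟨rfl, (γ : SL(2, ℤ)) 0 1, a2.symm, gQ_injective ?_⟩
  apply sl_ext <;> simp [gQ_apply, h1, a3, a4]

/-- The value of the glued homomorphism on `u(y)`. -/
noncomputable def theta (q : ℕ) (φ : Additive (Gamma0 N) →+ A) (y : ℚ) : A :=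
  open scoped Classical in
  if h : ∃ m : ℕ, ∃ n : ℤ, y * (q : ℚ) ^ (2 * m) = n then
    h.choose_spec.choose • φ (Additive.ofMul (uInt N 1))
  else 0

theorem exists_sq_pow_of_mem {y : ℚ} (hy : y ∈ qMul q 1) :
    ∃ m : ℕ, ∃ n : ℤ, y * (q : ℚ) ^ (2 * m) = n := by
  obtain ⟨k, n, hk⟩ := hy
  refine ⟨k, n * q ^ k, ?_⟩
  rw [Nat.cast_one, one_mul] at hk
  push_cast
  rw [← hk, two_mul, pow_add]
  ring

theorem sq_pow_zsmul (hK : KerPair N q φ ψ) (hqN : ¬ q ∣ N) (m : ℕ) (n : ℤ) :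
    (n * (q : ℤ) ^ (2 * m)) • φ (Additive.ofMul (uInt N 1)) =
      n • φ (Additive.ofMul (uInt N 1)) := by
  induction m with
  | zero => simp
  | succ m ih =>
    rw [show n * (q : ℤ) ^ (2 * (m + 1)) = (q : ℤ) ^ 2 * (n * (q : ℤ) ^ (2 * m)) by ring,
      ← map_uInt, map_uInt_sq hK hqN, map_uInt, ih]

theorem theta_eq (hK : KerPair N q φ ψ) (hqN : ¬ q ∣ N) {y : ℚ} {m : ℕ} {n : ℤ}
    (h : y * (q : ℚ) ^ (2 * m) = n) : theta q φ y = n • φ (Additive.ofMul (uInt N 1)) := by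
  classical
  have he : ∃ m : ℕ, ∃ n : ℤ, y * (q : ℚ) ^ (2 * m) = n := ⟨m, n, h⟩
  rw [theta, dif_pos he]
  have hspec := he.choose_spec.choose_spec
  set n' := he.choose_spec.choose
  set m' := he.choose
  have e : n' * (q : ℤ) ^ (2 * m) = n * (q : ℤ) ^ (2 * m') := by
    have : (n' : ℚ) * (q : ℚ) ^ (2 * m) = n * (q : ℚ) ^ (2 * m') := by rw [← hspec, ← h]; ring
    exact_mod_cast this
  rw [← sq_pow_zsmul hK hqN m n', e, sq_pow_zsmul hK hqN]

theorem theta_intCast (hK : KerPair N q φ ψ) (hqN : ¬ q ∣ N) (n : ℤ) :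
    theta q φ (n : ℚ) = φ (Additive.ofMul (uInt N n)) := by
  rw [theta_eq hK hqN (m := 0) (n := n) (by simp), ← map_uInt]

theorem theta_add (hK : KerPair N q φ ψ) (hqN : ¬ q ∣ N) {y z : ℚ} (hy : y ∈ qMul q 1)
    (hz : z ∈ qMul q 1) : theta q φ (y + z) = theta q φ y + theta q φ z := by
  obtain ⟨m, n, h⟩ := exists_sq_pow_of_mem hy
  obtain ⟨m', n', h'⟩ := exists_sq_pow_of_mem hz
  rw [theta_eq hK hqN (m := m + m') (n := n * q ^ (2 * m') + n' * q ^ (2 * m))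
    (by push_cast; rw [← h, ← h']; ring), add_zsmul, sq_pow_zsmul hK hqN, sq_pow_zsmul hK hqN,
    theta_eq hK hqN h, theta_eq hK hqN h']

theorem theta_zpow_mul (hK : KerPair N q φ ψ) (hqN : ¬ q ∣ N) {y : ℚ} (hy : y ∈ qMul q 1)
    (j : ℤ) : theta q φ ((q : ℚ) ^ (2 * j) * y) = theta q φ y := by
  have hqQ := qQ_ne_zero (q := q)
  obtain ⟨m, n, h⟩ := exists_sq_pow_of_mem hy
  rw [theta_eq hK hqN h]
  obtain ⟨a, rfl | rfl⟩ := j.eq_nat_or_neg
  · rw [theta_eq hK hqN (m := m) (n := n * q ^ (2 * a))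
      (by push_cast; rw [← h, show (2 * (a : ℤ)) = ((2 * a : ℕ) : ℤ) by push_cast; ring,
        zpow_natCast]; ring), sq_pow_zsmul hK hqN]
  · refine theta_eq hK hqN (m := m + a) ?_
    rw [← h, show 2 * -(a : ℤ) = -((2 * a : ℕ) : ℤ) by push_cast; ring, _root_.zpow_neg,
      zpow_natCast, mul_add, pow_add]
    field_simp

variable (q φ ψ) in
/-- The glued homomorphism. -/
noncomputable def glue (t : A) (x : SL(2, ℚ)) : A :=
  open scoped Classical in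
  if h : ∃ (γ : Gamma0 N) (i : ℤ) (y : ℚ), y ∈ qMul q 1 ∧ x = gQ N γ * bEl q i y then
    φ (Additive.ofMul h.choose) + h.choose_spec.choose • t +
      theta q φ h.choose_spec.choose_spec.choose
  else 0

/-- The value attached to a decomposition does not depend on the decomposition. -/
theorem decomp_value_eq (hK : KerPair N q φ ψ) (hqN : ¬ q ∣ N) (t : A) {γ γ' : Gamma0 N}
    {i i' : ℤ} {y y' : ℚ} (hy : y ∈ qMul q 1) (hy' : y' ∈ qMul q 1)
    (h : gQ N γ * bEl q i y = gQ N γ' * bEl q i' y') :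
    φ (Additive.ofMul γ') + i' • t + theta q φ y' =
      φ (Additive.ofMul γ) + i • t + theta q φ y := by
  have hqQ := qQ_ne_zero (q := q)
  have e : gQ N (γ⁻¹ * γ') = bEl q (i - i') ((q : ℚ) ^ (2 * i') * (y - y')) := by
    have h1 : gQ N (γ⁻¹ * γ') = bEl q i y * (bEl q i' y')⁻¹ := by
      rw [map_mul, map_inv, eq_mul_inv_iff_mul_eq, mul_assoc, ← h, inv_mul_cancel_left]
    rw [h1, mul_inv_eq_iff_eq_mul, bEl_mul, sub_add_cancel, ← mul_assoc, ← zpow_add₀ hqQ,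
      neg_add_cancel, zpow_zero, one_mul, sub_add_cancel]
  obtain ⟨hi, n, hn, hγ⟩ := bEl_eq_gQ e.symm
  rw [eq_of_sub_eq_zero hi]
  have hd : (y - y') ∈ qMul q 1 := sub_mem hy hy'
  have h2 := theta_zpow_mul hK hqN hd i'
  rw [hn, theta_intCast hK hqN] at h2
  have h3 : theta q φ y = theta q φ (y - y') + theta q φ y' := by
    rw [← theta_add hK hqN hd hy', sub_add_cancel]
  rw [show γ' = γ * uInt N n by rw [← hγ, mul_inv_cancel_left], map_mul', h3, ← h2]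
  abel

theorem glue_eq (hK : KerPair N q φ ψ) (hqN : ¬ q ∣ N) (t : A) (γ : Gamma0 N) (i : ℤ) {y : ℚ}
    (hy : y ∈ qMul q 1) :
    glue q φ t (gQ N γ * bEl q i y) = φ (Additive.ofMul γ) + i • t + theta q φ y := by
  classical
  have he : ∃ (γ' : Gamma0 N) (i' : ℤ) (y' : ℚ),
      y' ∈ qMul q 1 ∧ gQ N γ * bEl q i y = gQ N γ' * bEl q i' y' := ⟨γ, i, y, hy, rfl⟩
  unfold glue
  rw [dif_pos he]
  exact decomp_value_eq hK hqN t hy he.choose_spec.choose_spec.choose_spec.1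
    he.choose_spec.choose_spec.choose_spec.2

theorem glue_bEl (hK : KerPair N q φ ψ) (hqN : ¬ q ∣ N) (t : A) (i : ℤ) {y : ℚ}
    (hy : y ∈ qMul q 1) : glue q φ t (bEl q i y) = i • t + theta q φ y := by
  have := glue_eq hK hqN t 1 i hy
  simpa using this

theorem glue_gQ (hK : KerPair N q φ ψ) (hqN : ¬ q ∣ N) (t : A) (γ : Gamma0 N) :
    glue q φ t (gQ N γ) = φ (Additive.ofMul γ) := by
  have e : bEl q 0 0 = 1 := by rw [bEl_zero, uMat_zero]
  have h0 := theta_intCast hK hqN 0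
  rw [map_uInt, zero_zsmul, Int.cast_zero] at h0
  have := glue_eq hK hqN t γ 0 (zero_mem (qMul q 1))
  rw [e, mul_one, zero_zsmul, h0, add_zero, add_zero] at this
  exact this

theorem glue_gQ_mul (hK : KerPair N q φ ψ) (hqN : ¬ q ∣ N) (t : A) (γ : Gamma0 N) {x : SL(2, ℚ)}
    (hx : x ∈ G0R q N) :
    glue q φ t (gQ N γ * x) = φ (Additive.ofMul γ) + glue q φ t x := by
  obtain ⟨γ', i, y, hy, rfl⟩ := exists_decomp hqN hx
  rw [← mul_assoc, ← map_mul, glue_eq hK hqN t _ i hy, glue_eq hK hqN t _ i hy, map_mul']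
  abel

theorem glue_mul_bEl (hK : KerPair N q φ ψ) (hqN : ¬ q ∣ N) (t : A) {x : SL(2, ℚ)}
    (hx : x ∈ G0R q N) (i : ℤ) {y : ℚ} (hy : y ∈ qMul q 1) :
    glue q φ t (x * bEl q i y) = glue q φ t x + glue q φ t (bEl q i y) := by
  obtain ⟨γ', j, z, hz, rfl⟩ := exists_decomp hqN hx
  have hz' : (q : ℚ) ^ (-(2 * i)) * z ∈ qMul q 1 :=
    mul_mem_qMul_one (qpow_zpow_mem_qMul_one hq.out.ne_zero _) hz
  rw [mul_assoc, bEl_mul, glue_eq hK hqN t _ _ (add_mem hz' hy), glue_eq hK hqN t _ j hz,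
    glue_bEl hK hqN t i hy, theta_add hK hqN hz' hy, ← mul_neg,
    theta_zpow_mul hK hqN hz, add_zsmul]
  abel

/-- The key relation: a triangular element written through both vertex groups. -/
theorem glue_bEl_eq (hK : KerPair N q φ ψ) (hqN : ¬ q ∣ N) {P δ₀ : Gamma0 N}
    (hP : gQ N P * aQ N q δ₀ = bEl q 1 0) {γ₁ δ γ₂ : Gamma0 N} {i : ℤ} {y : ℚ}
    (h : gQ N γ₁ * aQ N q δ * gQ N γ₂ = bEl q i y) :
    i • (φ (Additive.ofMul P) - ψ (Additive.ofMul δ₀)) + theta q φ y =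
      φ (Additive.ofMul γ₁) - ψ (Additive.ofMul δ) + φ (Additive.ofMul γ₂) := by
  have hqQ := qQ_ne_zero (q := q)
  have hint : ∀ a b : Fin 2, ∃ r : ℤ,
      ((gQ N γ₁ * aQ N q δ * gQ N γ₂) a b) * q = (r : ℚ) := by
    intro a b
    refine ⟨((γ₁ : SL(2, ℤ)) a 0 * ((δ : SL(2, ℤ)) 0 0 * q) +
        (γ₁ : SL(2, ℤ)) a 1 * (q * (δ : SL(2, ℤ)) 1 0 * q)) * (γ₂ : SL(2, ℤ)) 0 b +
        ((γ₁ : SL(2, ℤ)) a 0 * (δ : SL(2, ℤ)) 0 1 +
        (γ₁ : SL(2, ℤ)) a 1 * ((δ : SL(2, ℤ)) 1 1 * q)) * (γ₂ : SL(2, ℤ)) 1 b, ?_⟩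
    simp only [mul_entry, gQ_apply, aQ_00, aQ_01, aQ_10, aQ_11]
    push_cast
    field_simp
  obtain ⟨a1, a2, a3, a4⟩ := bEl_entries (q := q) i y
  obtain ⟨r00, h00⟩ := hint 0 0
  obtain ⟨r01, h01⟩ := hint 0 1
  obtain ⟨r11, h11⟩ := hint 1 1
  rw [h, a1] at h00
  rw [h, a2] at h01
  rw [h, a4] at h11
  have hq1 : (1 : ℚ) < q := by exact_mod_cast hq.out.one_lt
  have bound : ∀ (e : ℤ) (r : ℤ), (q : ℚ) ^ e * q = r → -1 ≤ e := by
    intro e r hr
    by_contra hlt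
    have h1 : (q : ℚ) ^ e * q = (q : ℚ) ^ (e + 1) := (zpow_add_one₀ hqQ e).symm
    rw [h1] at hr
    have hpos : (0 : ℚ) < (q : ℚ) ^ (e + 1) := zpow_pos (by linarith) _
    have hlt1 : (q : ℚ) ^ (e + 1) < 1 := zpow_lt_one_of_neg₀ hq1 (by omega)
    rw [hr] at hpos hlt1
    have : 0 < r := by exact_mod_cast hpos
    have : r < 1 := by exact_mod_cast hlt1
    omega
  have b1 := bound i r00 h00
  have b2 := bound (-i) r11 h11
  obtain rfl | rfl | rfl : i = -1 ∨ i = 0 ∨ i = 1 := by omega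
  · -- `i = -1`
    rw [show ((q : ℚ) ^ (-1 : ℤ) * y) * q = y by rw [_root_.zpow_neg, zpow_one]; field_simp] at h01
    subst h01
    have hb : bEl q (-1) (r01 : ℚ) = aQ N q δ₀⁻¹ * gQ N (P⁻¹ * uInt N r01) := by
      rw [map_inv, map_mul, map_inv, gQ_uInt, ← mul_assoc, ← mul_inv_rev, hP,
        eq_comm, inv_mul_eq_iff_eq_mul, bEl_mul]
      norm_num [bEl_zero]
    rw [hb] at h
    have e : gQ N γ₁ * aQ N q δ * gQ N (γ₂ * (P⁻¹ * uInt N r01)⁻¹) = aQ N q δ₀⁻¹ := by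
      rw [map_mul, map_inv, ← mul_assoc, h, mul_inv_cancel_right]
    have hv := value_eq hK hqN e
    simp only [map_mul', map_inv'] at hv
    rw [theta_intCast hK hqN, neg_one_zsmul]
    rw [← sub_eq_zero] at hv ⊢
    rw [← neg_eq_zero, ← hv]
    abel
  · -- `i = 0`
    rw [zpow_zero, one_mul] at h01
    have hyr : y = (r01 : ℚ) / q := by rw [eq_div_iff hqQ]; exact h01
    have hb : bEl q 0 y = aQ N q (uInt N r01) := by rw [bEl_zero, aQ_uInt, hyr]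
    rw [hb] at h
    have hv := value_eq hK hqN h
    -- compare `θ (r / q)` with `ψ`
    have e : gQ N (P⁻¹ * uInt N (r01 * q) * P) * aQ N q δ₀ * gQ N 1 =
        aQ N q (δ₀ * uInt N r01) := by
      rw [map_one, mul_one, map_mul, map_mul, map_inv, map_mul, gQ_uInt, aQ_uInt]
      have hh : bEl q 1 0 * uMat ((r01 : ℚ) / q) = uMat (((r01 * q : ℤ)) : ℚ) * bEl q 1 0 := by
        obtain ⟨a1, a2, a3, a4⟩ := bEl_entries (q := q) 1 0
        apply sl_ext <;> simp [mul_entry, uMat, a1, a2, a3, a4]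
        field_simp
      rw [mul_assoc, hP, mul_assoc, ← hh, ← hP]
      group
    have hv2 := value_eq hK hqN e
    simp only [map_mul', map_inv', ofMul_one, map_zero, add_zero] at hv2
    have hθ : theta q φ y = φ (Additive.ofMul (uInt N (r01 * q))) := by
      rw [theta_eq hK hqN (m := 1) (n := r01 * q) (by rw [hyr]; push_cast; field_simp), ← map_uInt]
    rw [zero_zsmul, zero_add, hv, hθ]
    rw [← sub_eq_zero] at hv2 ⊢
    rw [← hv2]
    abel
  · -- `i = 1`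
    rw [show ((q : ℚ) ^ (1 : ℤ) * y) * q = (q : ℚ) ^ (2 * (1 : ℤ)) * y by
      rw [zpow_one, mul_one, show (2 : ℤ) = ((2 : ℕ) : ℤ) by rfl, zpow_natCast]; ring] at h01
    have hy : y ∈ qMul q 1 := by
      have : y = (r01 : ℚ) * (q : ℚ) ^ (-(2 * (1 : ℤ))) := by
        rw [← h01, mul_right_comm, ← zpow_add₀ hqQ, add_neg_cancel, zpow_zero, one_mul]
      rw [this]
      exact mul_mem_qMul_one (intCast_mem_qMul_one _) (qpow_zpow_mem_qMul_one hq.out.ne_zero _)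
    have hb : bEl q 1 y = gQ N (uInt N r01 * P) * aQ N q δ₀ := by
      rw [map_mul, mul_assoc, hP, gQ_uInt, ← bEl_zero (q := q), bEl_mul, zero_add, add_zero,
        ← h01, ← mul_assoc, ← zpow_add₀ hqQ, neg_add_cancel, zpow_zero, one_mul]
    rw [hb] at h
    have e : gQ N ((uInt N r01 * P)⁻¹ * γ₁) * aQ N q δ * gQ N γ₂ = aQ N q δ₀ := by
      rw [map_mul, map_inv, mul_assoc, mul_assoc, ← mul_assoc (gQ N γ₁), h, inv_mul_cancel_left]
    have hv := value_eq hK hqN e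
    simp only [map_mul', map_inv'] at hv
    rw [one_zsmul, show theta q φ y = φ (Additive.ofMul (uInt N r01)) by
      rw [← theta_intCast hK hqN, ← h01, theta_zpow_mul hK hqN hy]]
    rw [← sub_eq_zero] at hv ⊢
    rw [← neg_eq_zero, ← hv]
    abel

/-- The glued map is a homomorphism extending `φ`, with value `-ψ` on the other vertex group. -/
theorem exists_glue (hK : KerPair N q φ ψ) (hqN : ¬ q ∣ N) :
    ∃ F : SL(2, ℚ) → A, (∀ {x y}, x ∈ G0R q N → y ∈ G0R q N → F (x * y) = F x + F y) ∧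
      (∀ γ, F (gQ N γ) = φ (Additive.ofMul γ)) ∧
      (∀ δ, F (aQ N q δ) = -ψ (Additive.ofMul δ)) := by
  obtain ⟨P, δ₀, hP⟩ := exists_factor_hMat (q := q) (N := N) hqN
  set t := φ (Additive.ofMul P) - ψ (Additive.ofMul δ₀) with ht
  set F := glue q φ t with hF
  have hG : ∀ {z}, z ∈ G0R q N → ∀ γ, F (gQ N γ * z) = φ (Additive.ofMul γ) + F z :=
    fun hz γ => glue_gQ_mul hK hqN t γ hz
  -- left multiplication by the second vertex group
  have hA : ∀ (δ : Gamma0 N) {z}, z ∈ G0R q N →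
      F (aQ N q δ * z) = -ψ (Additive.ofMul δ) + F z := by
    intro δ z hz
    obtain ⟨γ, j, w, hw, rfl⟩ := exists_decomp hqN hz
    have hmem : aQ N q δ * gQ N γ ∈ G0R q N := mul_mem (aQ_mem_G0R δ) (gQ_mem_G0R γ)
    rw [hF, ← mul_assoc, glue_mul_bEl hK hqN t hmem j hw, glue_mul_bEl hK hqN t (gQ_mem_G0R γ) j hw,
      glue_gQ hK hqN t]
    obtain ⟨γ', i, y, hy, e⟩ := exists_decomp hqN hmem
    have e' : gQ N γ'⁻¹ * aQ N q δ * gQ N γ = bEl q i y := by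
      rw [map_inv, mul_assoc, e, inv_mul_cancel_left]
    have hv := glue_bEl_eq hK hqN hP e'
    rw [map_inv', ← ht] at hv
    rw [e, glue_eq hK hqN t γ' i hy, add_assoc (φ (Additive.ofMul γ')), hv]
    abel
  have hA1 : ∀ δ, F (aQ N q δ) = -ψ (Additive.ofMul δ) := by
    intro δ
    have := hA δ (one_mem _)
    rwa [mul_one, show F 1 = 0 by
      rw [hF, ← map_one (gQ N), glue_gQ hK hqN t, ofMul_one, map_zero], add_zero] at this
  refine ⟨F, ?_, glue_gQ hK hqN t, hA1⟩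
  -- the elements acting additively on the left form a monoid
  let S : Submonoid SL(2, ℚ) :=
    { carrier := {x | x ∈ G0R q N ∧ ∀ z ∈ G0R q N, F (x * z) = F x + F z}
      one_mem' := ⟨one_mem _, fun z _ => by
        rw [one_mul, hF, ← map_one (gQ N), glue_gQ hK hqN t, ofMul_one, map_zero, zero_add]⟩
      mul_mem' := fun {a b} ha hb => ⟨mul_mem ha.1 hb.1, fun z hz => by
        rw [mul_assoc, ha.2 _ (mul_mem hb.1 hz), hb.2 z hz, ha.2 b hb.1, add_assoc]⟩ }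
  have hgS : ∀ γ, gQ N γ ∈ S := fun γ => ⟨gQ_mem_G0R γ, fun z hz => by
    rw [hG hz, hF, glue_gQ hK hqN t]⟩
  have haS : ∀ δ, aQ N q δ ∈ S := fun δ => ⟨aQ_mem_G0R δ, fun z hz => by rw [hA δ hz, hA1]⟩
  have hhS : ∀ i : ℤ, bEl q i 0 ∈ S := by
    intro i
    induction i using Int.induction_on with
    | zero => rw [bEl_zero, uMat_zero]; exact one_mem S
    | succ n ih =>
      have : bEl q ((n : ℤ) + 1) 0 = bEl q (n : ℤ) 0 * (gQ N P * aQ N q δ₀) := by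
        rw [hP, bEl_mul]; norm_num
      rw [this]
      exact mul_mem ih (mul_mem (hgS _) (haS _))
    | pred n ih =>
      have e1 : bEl q (-1) 0 = aQ N q δ₀⁻¹ * gQ N P⁻¹ := by
        rw [map_inv, map_inv, ← mul_inv_rev, hP, eq_comm, inv_eq_iff_mul_eq_one, bEl_mul]
        norm_num [bEl_zero, uMat_zero]
      have : bEl q (-(n : ℤ) - 1) 0 = bEl q (-(n : ℤ)) 0 * (aQ N q δ₀⁻¹ * gQ N P⁻¹) := by
        rw [← e1, bEl_mul, sub_eq_add_neg]; norm_num
      rw [this]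
      exact mul_mem ih (mul_mem (haS _) (hgS _))
  have hS : ∀ x ∈ G0R q N, x ∈ S := by
    intro x hx
    obtain ⟨γ, i, y, hy, rfl⟩ := exists_decomp hqN hx
    obtain ⟨m, n, hn⟩ := exists_sq_pow_of_mem hy
    have e : bEl q i y = bEl q i 0 * (bEl q (-(m : ℤ)) 0 * gQ N (uInt N n) * bEl q (m : ℤ) 0) := by
      have hyn : y = (q : ℚ) ^ (-(2 * (m : ℤ))) * (n : ℚ) := by
        rw [← hn, show (2 * (m : ℤ)) = ((2 * m : ℕ) : ℤ) by push_cast; ring, _root_.zpow_neg,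
          zpow_natCast, mul_comm y, inv_mul_cancel_left₀ (pow_ne_zero _ qQ_ne_zero)]
      rw [gQ_uInt, ← bEl_zero (q := q), bEl_mul, bEl_mul, bEl_mul, hyn]
      norm_num
    rw [e]
    exact mul_mem (hgS γ) (mul_mem (hhS i) (mul_mem (mul_mem (hhS _) (hgS _)) (hhS _)))
  exact fun {x y} hx hy => (hS x hx).2 y hy

end FermatLib.Modular.Ihara
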