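import Fermat.Agent.Modular.Ihara.SL2Q

/-!
# Homomorphisms on congruence subgroups of `SL₂(ℤ[1/q])` killing unipotents
-/

set_option autoImplicit false
set_option linter.unusedSimpArgs false

namespace FermatLib.Modular.Ihara

open scoped MatrixGroups

variable {A : Type*} [AddCommGroup A] {q M : ℕ}

/-- `f` restricts to a homomorphism on `GM q M` killing all unipotent elements. -/
structure GoodHom (q M : ℕ) (f : SL(2, ℚ) → A) : Prop where
  add : ∀ {x y : SL(2, ℚ)}, x ∈ GM q M → y ∈ GM q M → f (x * y) = f x + f y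
  unip : ∀ {x : SL(2, ℚ)}, x ∈ GM q M → x 0 0 + x 1 1 = 2 → f x = 0

namespace GoodHom

variable {f : SL(2, ℚ) → A} (hf : GoodHom q M f)
include hf

theorem map_one : f 1 = 0 :=
  hf.unip (one_mem _) (by norm_num [one_00, one_11])

theorem map_inv {x : SL(2, ℚ)} (hx : x ∈ GM q M) : f x⁻¹ = -f x := by
  have := hf.add hx (inv_mem hx)
  rw [mul_inv_cancel, hf.map_one] at this
  exact eq_neg_of_add_eq_zero_right this.symm

theorem map_conj {x y : SL(2, ℚ)} (hx : x ∈ GM q M) (hy : y ∈ GM q M) :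
    f (x * y * x⁻¹) = f y := by
  rw [hf.add (mul_mem hx hy) (inv_mem hx), hf.add hx hy, hf.map_inv hx]
  abel

theorem map_pow {x : SL(2, ℚ)} (hx : x ∈ GM q M) (n : ℕ) : f (x ^ n) = n • f x := by
  induction n with
  | zero => simpa using hf.map_one
  | succ n ih => rw [pow_succ, hf.add (pow_mem hx n) hx, ih, succ_nsmul]

theorem map_uMat {x : ℚ} (hx : x ∈ qMul q M) : f (uMat x) = 0 :=
  hf.unip (uMat_mem_GM hx) (by norm_num [uMat])

theorem map_lMat {x : ℚ} (hx : x ∈ qMul q M) : f (lMat x) = 0 :=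
  hf.unip (lMat_mem_GM hx) (by norm_num [lMat])

theorem map_mul_uMat {x : SL(2, ℚ)} (hx : x ∈ GM q M) {y : ℚ} (hy : y ∈ qMul q M) :
    f (x * uMat y) = f x := by
  rw [hf.add hx (uMat_mem_GM hy), hf.map_uMat hy, add_zero]

theorem map_mul_lMat {x : SL(2, ℚ)} (hx : x ∈ GM q M) {y : ℚ} (hy : y ∈ qMul q M) :
    f (x * lMat y) = f x := by
  rw [hf.add hx (lMat_mem_GM hy), hf.map_lMat hy, add_zero]

/-- `f` depends on the first row only. -/
theorem eq_of_row_eq {x y : SL(2, ℚ)} (hx : x ∈ GM q M) (hy : y ∈ GM q M)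
    (h0 : x 0 0 = y 0 0) (h1 : x 0 1 = y 0 1) : f x = f y := by
  have hz : x * y⁻¹ ∈ GM q M := mul_mem hx (inv_mem hy)
  have e0 : (x * y⁻¹) 0 0 = 1 := by
    rw [mul_entry, inv_00, inv_10, h0, h1]
    linear_combination det_entries y
  have e1 : (x * y⁻¹) 0 1 = 0 := by
    rw [mul_entry, inv_01, inv_11, h0, h1]
    ring
  have e2 : (x * y⁻¹) 1 1 = 1 := by
    have := det_entries (x * y⁻¹)
    rw [e0, e1] at this
    linarith
  have := hf.unip hz (by rw [e0, e2]; norm_num)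
  rw [hf.add hx (inv_mem hy), hf.map_inv hy] at this
  exact eq_of_sub_eq_zero (by rwa [sub_eq_add_neg])

theorem comp_conj {g : SL(2, ℚ)} {M' : ℕ}
    (h : ∀ x ∈ GM q M', g * x * g⁻¹ ∈ GM q M) :
    GoodHom q M' fun x => f (g * x * g⁻¹) where
  add {x y} hx hy := by
    show f (g * (x * y) * g⁻¹) = _
    rw [show g * (x * y) * g⁻¹ = (g * x * g⁻¹) * (g * y * g⁻¹) by group]
    exact hf.add (h x hx) (h y hy)
  unip {x} hx ht := hf.unip (h x hx) (by rw [trace_conj]; exact ht)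

end GoodHom

/-- Elements of `SL(2, ℚ)` fixing the germ of every good homomorphism. -/
def germFix (q : ℕ) [hq : Fact q.Prime] (A : Type*) [AddCommGroup A] : Subgroup SL(2, ℚ) where
  carrier := {g | ∀ (M : ℕ) (f : SL(2, ℚ) → A), 0 < M → M.Coprime q → GoodHom q M f →
    ∃ M' : ℕ, 0 < M' ∧ M'.Coprime q ∧ M ∣ M' ∧
      ∀ x ∈ GM q M', g * x * g⁻¹ ∈ GM q M ∧ f (g * x * g⁻¹) = f x}
  one_mem' := fun M f h0 hc _ => ⟨M, h0, hc, dvd_rfl, fun x hx => by simp [hx]⟩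
  mul_mem' := by
    intro g₁ g₂ h₁ h₂ M f h0 hc hf
    obtain ⟨M₁, p₁, c₁, d₁, e₁⟩ := h₁ M f h0 hc hf
    obtain ⟨M₂, p₂, c₂, d₂, e₂⟩ := h₂ M f h0 hc hf
    obtain ⟨D, hD0, hDq, hD⟩ := exists_conj_mem_GM hq.out g₂
    refine ⟨M₁ * D * M₂, by positivity, (c₁.mul_left hDq).mul_left c₂,
      dvd_mul_of_dvd_right d₂ _, fun x hx => ?_⟩
    have hy := hD M₁ x (GM_mono (dvd_mul_right _ _) hx)
    obtain ⟨k₁, k₂⟩ := e₁ _ hy
    rw [show g₁ * g₂ * x * (g₁ * g₂)⁻¹ = g₁ * (g₂ * x * g₂⁻¹) * g₁⁻¹ by group]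
    exact ⟨k₁, k₂.trans (e₂ x (GM_mono (dvd_mul_left _ _) hx)).2⟩
  inv_mem' := by
    intro g h M f h0 hc hf
    obtain ⟨M₁, p₁, c₁, d₁, e₁⟩ := h M f h0 hc hf
    obtain ⟨D, hD0, hDq, hD⟩ := exists_conj_mem_GM hq.out g⁻¹
    refine ⟨M₁ * D, by positivity, c₁.mul_left hDq, dvd_mul_of_dvd_left d₁ _, fun x hx => ?_⟩
    have hy := hD M₁ x hx
    obtain ⟨-, k⟩ := e₁ _ hy
    rw [show g * (g⁻¹ * x * g⁻¹⁻¹) * g⁻¹ = x by group] at k
    exact ⟨GM_mono d₁ hy, k.symm⟩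

theorem germFix_normal (q : ℕ) [hq : Fact q.Prime] (A : Type*) [AddCommGroup A] :
    (germFix q A).Normal := by
  constructor
  intro k hk g M f h0 hc hf
  obtain ⟨D, hD0, hDq, hD⟩ := exists_conj_mem_GM hq.out g
  obtain ⟨M₁, p₁, c₁, d₁, e₁⟩ :=
    hk (M * D) _ (by positivity) (hc.mul_left hDq) (hf.comp_conj (hD M))
  obtain ⟨E, hE0, hEq, hE⟩ := exists_conj_mem_GM hq.out g⁻¹
  refine ⟨M₁ * E, by positivity, c₁.mul_left hEq,
    dvd_mul_of_dvd_left (dvd_of_mul_right_dvd d₁) _, fun x hx => ?_⟩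
  have hy := hE M₁ x hx
  obtain ⟨k₁, k₂⟩ := e₁ _ hy
  have e : g * k * g⁻¹ * x * (g * k * g⁻¹)⁻¹ = g * (k * (g⁻¹ * x * g⁻¹⁻¹) * k⁻¹) * g⁻¹ := by
    group
  rw [e]
  refine ⟨hD M _ k₁, k₂.trans ?_⟩
  congr 1
  group

theorem subgroup_eq_top_of_normal_of_hMat {G : Subgroup SL(2, ℚ)} (hG : G.Normal) {v : ℚ}
    (hv : v ≠ 0) (hv2 : v ^ 2 ≠ 1) (h : hMat v hv ∈ G) (t : ℚ) (ht : t ≠ 0) :
    hMat t ht ∈ G := by
  have hcomm : ∀ z : SL(2, ℚ), hMat v hv * z * (hMat v hv)⁻¹ * z⁻¹ ∈ G := fun z => by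
    have := mul_mem h (hG.conj_mem _ (inv_mem h) z)
    simpa only [mul_assoc] using this
  have hne : v ^ 2 - 1 ≠ 0 := sub_ne_zero.2 hv2
  have hu : ∀ x, uMat x ∈ G := fun x => by
    have := hcomm (uMat (x / (v ^ 2 - 1)))
    rw [hMat_conj_uMat, uMat_inv, uMat_mul_uMat] at this
    convert this using 2
    field_simp
    ring
  have hne' : 1 / v ^ 2 - 1 ≠ 0 := by
    intro h0
    field_simp at h0
    exact hv2 (by linarith)
  have hl : ∀ x, lMat x ∈ G := fun x => by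
    have := hcomm (lMat (x / (1 / v ^ 2 - 1)))
    rw [hMat_conj_lMat, lMat_inv, lMat_mul_lMat] at this
    convert this using 2
    field_simp
    ring
  have e : hMat t ht = uMat t * lMat (-1 / t) * uMat t * (uMat (-1) * lMat 1 * uMat (-1)) := by
    apply sl_ext <;>
      simp only [hMat, uMat, lMat, mul_entry, mkSL_00, mkSL_01, mkSL_10, mkSL_11] <;>
      field_simp <;> ring
  rw [e]
  exact mul_mem (mul_mem (mul_mem (hu _) (hl _)) (hu _)) (mul_mem (mul_mem (hu _) (hl _)) (hu _))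

end FermatLib.Modular.Ihara
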