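import Fermat.Agent.Modular.Ihara.Congruence
import Fermat.Agent.Modular.Ihara.GlueHom

/-!
# Ihara's lemma

If a pair `(φ, ψ)` of homomorphisms on `Γ₀(N)` with values in any abelian group is in the kernel of
the degeneracy map to `Γ₀(N q)`, then both vanish on a principal congruence subgroup `Γ(M)`, with
`M = iharaLevel N q` independent of the pair.
-/

set_option autoImplicit false
set_option linter.unusedSimpArgs false

namespace FermatLib.Modular.Ihara

open scoped MatrixGroups
open CongruenceSubgroup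

/-- The preliminary level `N (q^(2 φ(N)) - 1)`. -/
def iharaLevel₀ (N q : ℕ) : ℕ := N * (q ^ (2 * N.totient) - 1)

/-- The level of Ihara's lemma; it depends only on `N` and `q`. -/
def iharaLevel (N q : ℕ) : ℕ := iharaLevel₀ N q ^ 2

theorem dvd_iharaLevel₀ (N q : ℕ) : N ∣ iharaLevel₀ N q := dvd_mul_right _ _

theorem dvd_iharaLevel (N q : ℕ) : N ∣ iharaLevel N q :=
  (dvd_iharaLevel₀ N q).trans (dvd_pow_self _ two_ne_zero)

variable {N q : ℕ}

theorem two_le_iharaLevel₀ (hN : 0 < N) (hq : q.Prime) : 2 ≤ iharaLevel₀ N q := by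
  have h1 : 1 ≤ N.totient := Nat.totient_pos.2 hN
  have h2 : 2 ^ 2 ≤ q ^ (2 * N.totient) :=
    le_trans (Nat.pow_le_pow_left hq.two_le 2) (Nat.pow_le_pow_right hq.pos (by omega))
  have h3 : 3 ≤ q ^ (2 * N.totient) - 1 := by omega
  calc 2 ≤ 1 * 3 := by norm_num
    _ ≤ _ := Nat.mul_le_mul hN h3

theorem iharaLevel₀_coprime (hN : 0 < N) (hq : q.Prime) (hqN : ¬ q ∣ N) :
    (iharaLevel₀ N q).Coprime q := by
  refine Nat.Coprime.mul_left (hq.coprime_iff_not_dvd.2 hqN).symm
    (hq.coprime_iff_not_dvd.2 fun h => ?_).symm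
  have h1 : q ∣ q ^ (2 * N.totient) :=
    dvd_pow_self _ (by have := Nat.totient_pos.2 hN; omega)
  have h3 : 1 ≤ q ^ (2 * N.totient) := Nat.one_le_pow _ _ hq.pos
  have := Nat.dvd_sub h1 h
  rw [Nat.sub_sub_self h3] at this
  exact hq.ne_one (Nat.dvd_one.1 this)

theorem iharaLevel_pos (hN : 0 < N) (hq : q.Prime) : 0 < iharaLevel N q :=
  pow_pos (lt_of_lt_of_le two_pos (two_le_iharaLevel₀ hN hq)) 2

theorem iharaLevel_coprime (hN : 0 < N) (hq : q.Prime) (hqN : ¬ q ∣ N) :
    (iharaLevel N q).Coprime q :=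
  (iharaLevel₀_coprime hN hq hqN).pow_left 2

/-- Integral matrices normalise `GM q M`. -/
theorem conj_mem_GM_of_integral {M : ℕ} {g x : SL(2, ℚ)} (hg : ∀ i j, g i j ∈ qMul q 1)
    (hx : x ∈ GM q M) : g * x * g⁻¹ ∈ GM q M := by
  obtain ⟨a, b, c, d⟩ := hx
  have key : ∀ {e : ℚ}, e ∈ qMul q M → ∀ i j k l, g i j * g k l * e ∈ qMul q M := fun he i j k l =>
    one_mul_mem_qMul (mul_mem_qMul_one (hg i j) (hg k l)) he
  have hdet := det_entries g
  refine ⟨?_, ?_, ?_, ?_⟩ <;> simp only [mul_entry, inv_00, inv_01, inv_10, inv_11]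
  · convert sub_mem (add_mem (key a 0 0 1 1) (key c 0 1 1 1))
      (add_mem (key b 0 0 1 0) (key d 0 1 1 0)) using 1
    linear_combination hdet
  · convert sub_mem (add_mem (key b 0 0 0 0) (key d 0 1 0 0))
      (add_mem (key a 0 0 0 1) (key c 0 1 0 1)) using 1
    ring
  · convert sub_mem (add_mem (key a 1 0 1 1) (key c 1 1 1 1))
      (add_mem (key b 1 0 1 0) (key d 1 1 1 0)) using 1
    ring
  · convert sub_mem (add_mem (key b 1 0 0 0) (key d 1 1 0 0))
      (add_mem (key a 1 0 0 1) (key c 1 1 0 1)) using 1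
    linear_combination hdet

/-- Every unipotent of `SL(2, ℚ)` is conjugate by an element of `SL(2, ℤ)` to an upper one. -/
theorem exists_integral_triangularisation {x : SL(2, ℚ)} (ht : x 0 0 + x 1 1 = 2) :
    ∃ (g : SL(2, ℚ)) (w : ℚ), (∀ i j, ∃ z : ℤ, g i j = (z : ℚ)) ∧ g⁻¹ * x * g = uMat w := by
  have hdet := det_entries x
  by_cases hc : x 1 0 = 0
  · refine ⟨1, x 0 1, fun i j => ?_, ?_⟩
    · fin_cases i <;> fin_cases j
      · exact ⟨1, by simp⟩
      · exact ⟨0, by simp⟩
      · exact ⟨0, by simp⟩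
      · exact ⟨1, by simp⟩
    · rw [hc, mul_zero, sub_zero] at hdet
      have h00 : x 0 0 = 1 := by
        have : (x 0 0 - 1) * (x 0 0 - 1) = 0 := by
          linear_combination x 0 0 * ht - hdet
        have := mul_self_eq_zero.1 this
        linarith
      simp only [inv_one, one_mul, mul_one]
      apply sl_ext <;> simp [uMat, h00, hc]
      linarith
  · set ρ : ℚ := (x 0 0 - 1) / x 1 0 with hρ
    obtain ⟨u, v, huv⟩ : IsCoprime ρ.num (ρ.den : ℤ) :=
      Int.isCoprime_iff_nat_coprime.2 (by simpa using ρ.reduced)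
    have huv' : (u : ℚ) * ρ.num + v * ρ.den = 1 := by exact_mod_cast huv
    set g : SL(2, ℚ) := mkSL ρ.num (-v) ρ.den u (by linear_combination huv') with hg
    refine ⟨g, (g⁻¹ * x * g) 0 1, fun i j => ?_, ?_⟩
    · fin_cases i <;> fin_cases j
      · exact ⟨ρ.num, rfl⟩
      · exact ⟨-v, by simp [hg]⟩
      · exact ⟨(ρ.den : ℤ), by simp [hg]⟩
      · exact ⟨u, rfl⟩
    · have hAB : (ρ.num : ℚ) * x 1 0 = (x 0 0 - 1) * ρ.den := by
        have h1 : ρ * ρ.den = ρ.num := Rat.mul_den_eq_num ρ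
        rw [← h1, hρ]
        field_simp
      have hbc : x 0 1 * x 1 0 = -((x 0 0 - 1) * (x 0 0 - 1)) := by
        linear_combination -hdet + x 0 0 * ht
      have hB0 : (ρ.den : ℚ) ≠ 0 := Nat.cast_ne_zero.2 ρ.den_nz
      have hzero : x 0 0 * ρ.num + x 0 1 * ρ.den = ρ.num := by
        apply mul_left_cancel₀ hc
        linear_combination (x 0 0 - 1) * hAB + (ρ.den : ℚ) * hbc
      have hzero2 : x 1 0 * ρ.num + x 1 1 * ρ.den = ρ.den := by
        linear_combination hAB + (ρ.den : ℚ) * ht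
      have e00 : (g⁻¹ * x * g) 0 0 = 1 := by
        simp only [mul_entry, inv_00, inv_01, hg, mkSL_00, mkSL_01, mkSL_10, mkSL_11]
        linear_combination (u : ℚ) * hzero + (v : ℚ) * hzero2 + huv'
      have e10 : (g⁻¹ * x * g) 1 0 = 0 := by
        simp only [mul_entry, inv_10, inv_11, hg, mkSL_00, mkSL_01, mkSL_10, mkSL_11]
        linear_combination -(ρ.den : ℚ) * hzero + (ρ.num : ℚ) * hzero2
      have e11 : (g⁻¹ * x * g) 1 1 = 1 := by
        have := det_entries (g⁻¹ * x * g)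
        rw [e00, e10] at this
        linarith
      apply sl_ext <;> simp [uMat, e00, e10, e11]

variable {A : Type*} [AddCommGroup A]

/-- A homomorphism on `G0R q N` kills the unipotents of a suitable congruence subgroup. -/
theorem goodHom_of_additive [hq : Fact q.Prime] (hN : 0 < N) (hqN : ¬ q ∣ N)
    {F : SL(2, ℚ) → A}
    (hF : ∀ {x y}, x ∈ G0R q N → y ∈ G0R q N → F (x * y) = F x + F y) :
    GoodHom q (iharaLevel₀ N q) F where
  add {x y} hx hy :=
    hF (GM_le_G0R (dvd_iharaLevel₀ N q) hx) (GM_le_G0R (dvd_iharaLevel₀ N q) hy)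
  unip {x} hx ht := by
    set k := N.totient with hk
    set m := q ^ (2 * k) - 1 with hm
    have hNq : N.Coprime q := (hq.out.coprime_iff_not_dvd.2 hqN).symm
    have hqk : ((N : ℤ)) ∣ (q : ℤ) ^ k - 1 := by
      have h1 := Nat.ModEq.pow_totient hNq.symm
      have := Int.modEq_iff_dvd.1 (Int.natCast_modEq_iff.2 h1).symm
      exact_mod_cast this
    obtain ⟨g, w, hg, hgx⟩ := exists_integral_triangularisation ht
    have hgint : ∀ i j, g i j ∈ qMul q 1 := fun i j => by
      obtain ⟨z, hz⟩ := hg i j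
      rw [hz]
      exact intCast_mem_qMul_one z
    have hgi : ∀ i j, g⁻¹ i j ∈ qMul q 1 := by
      intro i j
      fin_cases i <;> fin_cases j
      · simpa [inv_00] using hgint 1 1
      · simpa [inv_01] using hgint 0 1
      · simpa [inv_10] using hgint 1 0
      · simpa [inv_11] using hgint 0 0
    have hw : w ∈ qMul q (iharaLevel₀ N q) := by
      have := conj_mem_GM_of_integral hgi hx
      rw [inv_inv, hgx] at this
      simpa [uMat] using this.2.1
    have hm3 : 3 ≤ m := by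
      have h1 : 1 ≤ k := Nat.totient_pos.2 hN
      have h2 : 2 ^ 2 ≤ q ^ (2 * k) :=
        le_trans (Nat.pow_le_pow_left hq.out.two_le 2) (Nat.pow_le_pow_right hq.out.pos (by omega))
      omega
    have hz : w / (m : ℚ) ∈ qMul q N := div_natCast_mem_qMul (by omega) hw
    set z := w / (m : ℚ) with hzdef
    have hqQ := qQ_ne_zero (q := q)
    set h := hMat ((q : ℚ) ^ (k : ℤ)) (zpow_ne_zero _ hqQ) with hh
    have hhN : h ∈ GM q N := by
      have h1 : (q : ℚ) ^ (k : ℤ) - 1 ∈ qMul q N := by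
        have := intCast_mem_qMul (q := q) hqk
        push_cast at this
        simpa using this
      refine ⟨by simpa [hh, hMat] using h1, by simp [hh, hMat, zero_mem],
        by simp [hh, hMat, zero_mem], ?_⟩
      simp only [hh, hMat, mkSL_11]
      rw [← _root_.zpow_neg]
      convert neg_mem (mul_one_mem_qMul h1 (qpow_zpow_mem_qMul_one hq.out.ne_zero (-(k : ℤ))))
        using 1
      rw [sub_mul, ← zpow_add₀ hqQ, add_neg_cancel, zpow_zero]
      ring
    have e : uMat w = h * uMat z * h⁻¹ * (uMat z)⁻¹ := by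
      rw [hh, hMat_conj_uMat, uMat_inv, uMat_mul_uMat]
      congr 1
      have hmQ : (m : ℚ) = ((q : ℚ) ^ (k : ℤ)) ^ 2 - 1 := by
        rw [hm, Nat.cast_sub (Nat.one_le_pow _ _ hq.out.pos)]
        push_cast
        rw [zpow_natCast, ← pow_mul, mul_comm 2 k]
      have hm0 : (m : ℚ) ≠ 0 := Nat.cast_ne_zero.2 (by omega)
      calc w = (m : ℚ) * z := by rw [hzdef]; field_simp
        _ = _ := by rw [hmQ]; ring
    set a := g * h * g⁻¹ with ha
    set b := g * uMat z * g⁻¹ with hb
    have haG : a ∈ G0R q N := GM_le_G0R dvd_rfl (conj_mem_GM_of_integral hgint hhN)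
    have hbG : b ∈ G0R q N := GM_le_G0R dvd_rfl (conj_mem_GM_of_integral hgint (uMat_mem_GM hz))
    have hx' : x = a * b * a⁻¹ * b⁻¹ := by
      rw [show x = g * (g⁻¹ * x * g) * g⁻¹ by group, hgx, e, ha, hb]
      group
    have hinv : ∀ {y}, y ∈ G0R q N → F y⁻¹ = -F y := by
      intro y hy
      have h1 := hF (one_mem (G0R q N)) (one_mem (G0R q N))
      have h2 := hF hy (inv_mem hy)
      rw [one_mul] at h1
      rw [mul_inv_cancel, left_eq_add.1 h1] at h2
      exact eq_neg_of_add_eq_zero_right h2.symm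
    rw [hx', hF (mul_mem (mul_mem haG hbG) (inv_mem haG)) (inv_mem hbG),
      hF (mul_mem haG hbG) (inv_mem haG), hF haG hbG, hinv haG, hinv hbG]
    abel

/-- **Ihara's lemma**: both members of a pair in the kernel of the degeneracy map vanish on the
principal congruence subgroup of level `iharaLevel N q`. -/
theorem ihara_vanishing (hN : 0 < N) (hq : q.Prime) (hqN : ¬ q ∣ N)
    {φ ψ : Additive (Gamma0 N) →+ A}
    (hK : ∀ γ : Gamma0 (N * q),
      φ (Additive.ofMul (levelIncl N q γ)) + ψ (Additive.ofMul (alphaConj N q γ)) = 0)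
    (γ : Gamma0 N) (hγ : (γ : SL(2, ℤ)) ∈ Gamma (iharaLevel N q)) :
    φ (Additive.ofMul γ) = 0 ∧ ψ (Additive.ofMul γ) = 0 := by
  haveI : Fact q.Prime := ⟨hq⟩
  obtain ⟨F, hF, hFg, hFa⟩ := exists_glue (q := q) hK hqN
  have hgood := goodHom_of_additive hN hqN hF
  have hvan : ∀ x ∈ GM q (iharaLevel N q), F x = 0 := fun x hx =>
    hgood.eq_zero_of_mem_GM (two_le_iharaLevel₀ hN hq) (iharaLevel₀_coprime hN hq hqN) hx
  obtain ⟨h00, h01, h10, h11⟩ := Gamma_mem.1 hγ
  set M := iharaLevel N q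
  have c00 : ((((γ : SL(2, ℤ)) 0 0 - 1 : ℤ)) : ZMod M) = 0 := by push_cast; rw [h00, sub_self]
  have c11 : ((((γ : SL(2, ℤ)) 1 1 - 1 : ℤ)) : ZMod M) = 0 := by push_cast; rw [h11, sub_self]
  rw [ZMod.intCast_zmod_eq_zero_iff_dvd] at c00 c11 h01 h10
  have i00 := intCast_mem_qMul (q := q) c00
  have i11 := intCast_mem_qMul (q := q) c11
  push_cast at i00 i11
  constructor
  · rw [← hFg]
    refine hvan _ ⟨?_, ?_, ?_, ?_⟩ <;> simp only [gQ_apply]
    exacts [i00, intCast_mem_qMul h01, intCast_mem_qMul h10, i11]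
  · have hu : (q : ℚ)⁻¹ ∈ qMul q 1 := by
      simpa using qpow_zpow_mem_qMul_one hq.ne_zero (-1)
    have := hvan (aQ N q γ) ⟨by simpa using i00,
      by simpa [div_eq_mul_inv] using mul_one_mem_qMul (intCast_mem_qMul h01) hu,
      by simpa using one_mul_mem_qMul (natCast_mem_qMul_one q) (intCast_mem_qMul h10),
      by simpa using i11⟩
    rw [hFa, neg_eq_zero] at this
    exact this

end FermatLib.Modular.Ihara
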