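import Mathlib.Tactic
import Mathlib.NumberTheory.LSeries.PrimesInAP

/-!
# The ideals `M · ℤ[1/q]` inside `ℚ`, and primes in prescribed classes

Elementary arithmetic used in the proof of Ihara's lemma.
-/

set_option autoImplicit false

namespace FermatLib.Modular.Ihara

/-- The additive subgroup `M · ℤ[1/q]` of `ℚ`. -/
def qMul (q M : ℕ) : AddSubgroup ℚ where
  carrier := {x | ∃ k : ℕ, ∃ n : ℤ, x * (q : ℚ) ^ k = M * n}
  zero_mem' := ⟨0, 0, by simp⟩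
  add_mem' := by
    rintro x y ⟨k, n, hx⟩ ⟨l, m, hy⟩
    refine ⟨k + l, n * q ^ l + m * q ^ k, ?_⟩
    push_cast
    rw [pow_add]
    linear_combination (q : ℚ) ^ l * hx + (q : ℚ) ^ k * hy
  neg_mem' := by
    rintro x ⟨k, n, hx⟩
    exact ⟨k, -n, by push_cast; linear_combination (-1 : ℚ) * hx⟩

variable {q M M' : ℕ}

theorem mul_mem_qMul {x y : ℚ} (hx : x ∈ qMul q M) (hy : y ∈ qMul q M') :
    x * y ∈ qMul q (M * M') := by
  obtain ⟨k, n, hx⟩ := hx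
  obtain ⟨l, m, hy⟩ := hy
  refine ⟨k + l, n * m, ?_⟩
  push_cast
  rw [pow_add]
  linear_combination (y * (q : ℚ) ^ l) * hx + ((M : ℚ) * n) * hy

theorem qMul_mono (h : M ∣ M') {x : ℚ} (hx : x ∈ qMul q M') : x ∈ qMul q M := by
  obtain ⟨k, n, hx⟩ := hx
  obtain ⟨c, rfl⟩ := h
  exact ⟨k, c * n, by push_cast at hx ⊢; linear_combination hx⟩

theorem qMul_one_of_mem {x : ℚ} (hx : x ∈ qMul q M) : x ∈ qMul q 1 :=
  qMul_mono (one_dvd M) hx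

theorem intCast_mem_qMul {n : ℤ} (h : (M : ℤ) ∣ n) : (n : ℚ) ∈ qMul q M := by
  obtain ⟨c, rfl⟩ := h
  exact ⟨0, c, by simp⟩

theorem intCast_mem_qMul_one (n : ℤ) : (n : ℚ) ∈ qMul q 1 :=
  intCast_mem_qMul (by simp)

theorem natCast_mem_qMul (M : ℕ) : (M : ℚ) ∈ qMul q M :=
  ⟨0, 1, by simp⟩

theorem natCast_mem_qMul_one (n : ℕ) : (n : ℚ) ∈ qMul q 1 := by
  exact_mod_cast intCast_mem_qMul_one (q := q) n

theorem one_mem_qMul_one : (1 : ℚ) ∈ qMul q 1 := by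
  simpa using natCast_mem_qMul (q := q) 1

theorem mul_one_mem_qMul {x y : ℚ} (hx : x ∈ qMul q M) (hy : y ∈ qMul q 1) :
    x * y ∈ qMul q M := by
  simpa using mul_mem_qMul hx hy

theorem one_mul_mem_qMul {x y : ℚ} (hx : x ∈ qMul q 1) (hy : y ∈ qMul q M) :
    x * y ∈ qMul q M := by
  simpa using mul_mem_qMul hx hy

theorem mul_mem_qMul_one {x y : ℚ} (hx : x ∈ qMul q 1) (hy : y ∈ qMul q 1) :
    x * y ∈ qMul q 1 :=
  mul_one_mem_qMul hx hy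

theorem pow_mem_qMul_one {x : ℚ} (hx : x ∈ qMul q 1) (n : ℕ) : x ^ n ∈ qMul q 1 := by
  induction n with
  | zero => simpa using one_mem_qMul_one
  | succ n ih => rw [pow_succ]; exact mul_mem_qMul_one ih hx

theorem div_natCast_mem_qMul {n : ℕ} (hn : n ≠ 0) {x : ℚ} (hx : x ∈ qMul q (M * n)) :
    x / n ∈ qMul q M := by
  obtain ⟨k, m, hx⟩ := hx
  refine ⟨k, m, ?_⟩
  push_cast at hx
  field_simp
  linear_combination hx

theorem qpow_zpow_mem_qMul_one (hq : q ≠ 0) (i : ℤ) : (q : ℚ) ^ i ∈ qMul q 1 := by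
  obtain ⟨n, rfl | rfl⟩ := i.eq_nat_or_neg
  · exact_mod_cast intCast_mem_qMul_one (q := q) ((q : ℤ) ^ n)
  · refine ⟨n, 1, ?_⟩
    rw [zpow_neg, zpow_natCast, inv_mul_cancel₀ (pow_ne_zero _ (by exact_mod_cast hq))]
    simp

/-- An integer lies in `M · ℤ[1/q]` iff it is a multiple of `M`. -/
theorem intCast_mem_qMul_iff (hM : M.Coprime q) {n : ℤ} :
    (n : ℚ) ∈ qMul q M ↔ (M : ℤ) ∣ n := by
  refine ⟨?_, intCast_mem_qMul⟩
  rintro ⟨k, m, h⟩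
  have h' : n * (q : ℤ) ^ k = M * m := by exact_mod_cast h
  exact (Int.isCoprime_iff_nat_coprime.2 (by simpa using hM)).pow_right.dvd_of_dvd_mul_right
    ⟨m, h'⟩

theorem one_notMem_qMul (hM : M.Coprime q) (h1 : M ≠ 1) : (1 : ℚ) ∉ qMul q M := by
  intro h
  have h' : ((1 : ℤ) : ℚ) ∈ qMul q M := by simpa using h
  exact h1 (Nat.dvd_one.1 (by exact_mod_cast (intCast_mem_qMul_iff hM).1 h'))

/-- Elements of `ℤ[1/q]` are congruent to integers modulo anything prime to `q`. -/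
theorem exists_int_sub_mem_qMul (hM : M.Coprime q) {x : ℚ} (hx : x ∈ qMul q 1) :
    ∃ z : ℤ, x - z ∈ qMul q M := by
  obtain ⟨k, n, hx⟩ := hx
  obtain ⟨u, v, huv⟩ : IsCoprime ((q : ℤ) ^ k) (M : ℤ) :=
    (Int.isCoprime_iff_nat_coprime.2 (by simpa using hM.symm)).pow_left
  refine ⟨u * n, k, v * n, ?_⟩
  have huv' : (u : ℚ) * (q : ℚ) ^ k + v * M = 1 := by exact_mod_cast huv
  push_cast at hx ⊢
  linear_combination hx - (n : ℚ) * huv'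

theorem mem_qMul_mul_of_coprime {A B : ℕ} (hAB : A.Coprime B) (hB : B.Coprime q) {x : ℚ}
    (hA : x ∈ qMul q A) (hB' : x ∈ qMul q B) : x ∈ qMul q (A * B) := by
  obtain ⟨k, n, hx⟩ := hA
  obtain ⟨l, m, hy⟩ := hB'
  have h : ((A : ℤ) * (n * q ^ l)) = (B : ℤ) * (m * q ^ k) := by
    have : (A : ℚ) * (n * (q : ℚ) ^ l) = (B : ℚ) * (m * (q : ℚ) ^ k) := by
      linear_combination (q : ℚ) ^ k * hy - (q : ℚ) ^ l * hx
    exact_mod_cast this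
  have hd : (B : ℤ) ∣ n * q ^ l :=
    (Int.isCoprime_iff_nat_coprime.2 (by simpa using hAB.symm)).dvd_of_dvd_mul_left ⟨_, h⟩
  obtain ⟨c, hc⟩ :=
    (Int.isCoprime_iff_nat_coprime.2 (by simpa using hB)).pow_right.dvd_of_dvd_mul_right hd
  refine ⟨k, c, ?_⟩
  have hc' : (n : ℚ) = B * c := by exact_mod_cast hc
  push_cast
  linear_combination hx + (A : ℚ) * hc'

theorem exists_coprime_mul_mem_qMul_one (hq : q.Prime) (x : ℚ) :
    ∃ D : ℕ, 0 < D ∧ D.Coprime q ∧ (D : ℚ) * x ∈ qMul q 1 := by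
  refine ⟨x.den / q ^ x.den.factorization q, Nat.ordCompl_pos q x.den_pos.ne', ?_, ?_⟩
  · exact (Nat.coprime_ordCompl hq x.den_pos.ne').symm
  · refine ⟨x.den.factorization q, x.num, ?_⟩
    have h : ((q : ℚ) ^ x.den.factorization q) *
        ((x.den / q ^ x.den.factorization q : ℕ) : ℚ) = x.den := by
      exact_mod_cast Nat.ordProj_mul_ordCompl_eq_self x.den q
    have h2 : x * x.den = x.num := Rat.mul_den_eq_num x
    rw [Nat.cast_one, one_mul]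
    linear_combination x * h + h2

/-- If `a ≠ 0` lies in `ℤ[1/q]` then `a ℤ[1/q] = n ℤ[1/q]` for some `n` prime to `q`. -/
theorem exists_nat_qMul_le_mul (hq : q.Prime) {a : ℚ} (ha : a ∈ qMul q 1) (ha0 : a ≠ 0) :
    ∃ n : ℕ, 0 < n ∧ n.Coprime q ∧ a ∈ qMul q n ∧
      ∀ x ∈ qMul q n, ∃ y ∈ qMul q 1, x = a * y := by
  obtain ⟨k, z, hz⟩ := ha
  rw [Nat.cast_one, one_mul] at hz
  have hqQ : (q : ℚ) ≠ 0 := by exact_mod_cast hq.ne_zero
  have hz0 : z.natAbs ≠ 0 := by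
    intro h
    rw [Int.natAbs_eq_zero.1 h] at hz
    simp [hqQ, ha0] at hz
  obtain ⟨e, n, hn, hze⟩ : ∃ e n : ℕ, n.Coprime q ∧ z.natAbs = q ^ e * n :=
    ⟨_, _, (Nat.coprime_ordCompl hq hz0).symm, (Nat.ordProj_mul_ordCompl_eq_self _ q).symm⟩
  have hn0 : n ≠ 0 := fun h => hz0 (by simp [hze, h])
  obtain ⟨ε, hε, hzε⟩ : ∃ ε : ℤ, ε * ε = 1 ∧ z = ε * (q ^ e * n : ℕ) := by
    rcases Int.natAbs_eq z with h | h
    · exact ⟨1, rfl, by rw [one_mul, ← hze]; exact h⟩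
    · exact ⟨-1, rfl, by rw [neg_one_mul, ← hze]; exact h⟩
  have hzQ : a * (q : ℚ) ^ k = (ε : ℚ) * ((q : ℚ) ^ e * n) := by
    rw [hz, hzε]
    push_cast
    ring
  have hεQ : (ε : ℚ) * ε = 1 := by exact_mod_cast hε
  refine ⟨n, by omega, hn, ⟨k, ε * q ^ e, by push_cast; linear_combination hzQ⟩, ?_⟩
  rintro x ⟨l, m, hx⟩
  refine ⟨(ε : ℚ) * m * (q : ℚ) ^ ((k : ℤ) - e - l), ?_, ?_⟩
  · exact mul_mem_qMul_one (mul_mem_qMul_one (intCast_mem_qMul_one ε) (intCast_mem_qMul_one m))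
      (qpow_zpow_mem_qMul_one hq.ne_zero _)
  · rw [zpow_sub₀ hqQ, zpow_sub₀ hqQ, zpow_natCast, zpow_natCast, zpow_natCast]
    field_simp
    linear_combination (q : ℚ) ^ e * hx - (ε : ℚ) * m * hzQ
      - ((q : ℚ) ^ e * n * m) * hεQ

/-- Dirichlet's theorem with two coprime moduli. -/
theorem exists_prime_gt_crt {m₁ m₂ : ℕ} (h₁ : m₁ ≠ 0) (h₂ : m₂ ≠ 0) (h : m₁.Coprime m₂)
    {a₁ a₂ : ℤ} (ha₁ : IsCoprime a₁ (m₁ : ℤ)) (ha₂ : IsCoprime a₂ (m₂ : ℤ)) (B : ℕ) :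
    ∃ r : ℕ, B < r ∧ r.Prime ∧ (m₁ : ℤ) ∣ (r : ℤ) - a₁ ∧ (m₂ : ℤ) ∣ (r : ℤ) - a₂ := by
  obtain ⟨u, v, huv⟩ : IsCoprime (m₁ : ℤ) (m₂ : ℤ) :=
    Int.isCoprime_iff_nat_coprime.2 (by simpa using h)
  have hcop : IsCoprime (a₁ * (v * m₂) + a₂ * (u * m₁)) ((m₁ * m₂ : ℕ) : ℤ) := by
    push_cast
    refine IsCoprime.mul_right ?_ ?_
    · rw [show a₁ * (v * m₂) + a₂ * (u * m₁) = a₁ + (m₁ : ℤ) * ((a₂ - a₁) * u) by
        linear_combination a₁ * huv]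
      exact ha₁.add_mul_left_left _
    · rw [show a₁ * (v * m₂) + a₂ * (u * m₁) = a₂ + (m₂ : ℤ) * ((a₁ - a₂) * v) by
        linear_combination a₂ * huv]
      exact ha₂.add_mul_left_left _
  obtain ⟨r, hrB, hr, hmod⟩ :=
    Nat.forall_exists_prime_gt_and_zmodEq B (mul_ne_zero h₁ h₂) hcop
  obtain ⟨t, ht⟩ := Int.modEq_iff_dvd.1 hmod.symm
  push_cast at ht
  exact ⟨r, hrB, hr, ⟨(m₂ : ℤ) * t + (a₂ - a₁) * u, by linear_combination ht + a₁ * huv⟩,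
    ⟨(m₁ : ℤ) * t + (a₁ - a₂) * v, by linear_combination ht + a₂ * huv⟩⟩

end FermatLib.Modular.Ihara
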