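import Fermat.Agent.Modular.Ihara.QInt
import Mathlib.LinearAlgebra.Matrix.SpecialLinearGroup

/-!
# Principal congruence subgroups of `SL₂(ℤ[1/q])` inside `SL₂(ℚ)`
-/

set_option autoImplicit false
set_option linter.unusedSimpArgs false

namespace FermatLib.Modular.Ihara

open Matrix
open scoped MatrixGroups

/-- The element of `SL(2, ℚ)` with the given entries. -/
def mkSL (a b c d : ℚ) (h : a * d - b * c = 1) : SL(2, ℚ) :=
  ⟨!![a, b; c, d], by rw [Matrix.det_fin_two_of]; exact h⟩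

section Entries

variable (a b c d : ℚ) (h : a * d - b * c = 1)

@[simp] theorem mkSL_00 : mkSL a b c d h 0 0 = a := rfl
@[simp] theorem mkSL_01 : mkSL a b c d h 0 1 = b := rfl
@[simp] theorem mkSL_10 : mkSL a b c d h 1 0 = c := rfl
@[simp] theorem mkSL_11 : mkSL a b c d h 1 1 = d := rfl

end Entries

theorem det_entries (x : SL(2, ℚ)) : x 0 0 * x 1 1 - x 0 1 * x 1 0 = 1 := by
  rw [← Matrix.det_fin_two]
  exact x.2

theorem sl_ext {x y : SL(2, ℚ)} (h00 : x 0 0 = y 0 0) (h01 : x 0 1 = y 0 1)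
    (h10 : x 1 0 = y 1 0) (h11 : x 1 1 = y 1 1) : x = y := by
  apply Matrix.SpecialLinearGroup.ext
  intro i j
  fin_cases i <;> fin_cases j <;> assumption

theorem mul_entry (x y : SL(2, ℚ)) (i j : Fin 2) :
    (x * y) i j = x i 0 * y 0 j + x i 1 * y 1 j := by
  rw [Matrix.SpecialLinearGroup.coe_mul, Matrix.mul_apply, Fin.sum_univ_two]

theorem inv_00 (x : SL(2, ℚ)) : x⁻¹ 0 0 = x 1 1 := by
  simp [Matrix.SpecialLinearGroup.coe_inv, Matrix.adjugate_fin_two]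

theorem inv_01 (x : SL(2, ℚ)) : x⁻¹ 0 1 = -x 0 1 := by
  simp [Matrix.SpecialLinearGroup.coe_inv, Matrix.adjugate_fin_two]

theorem inv_10 (x : SL(2, ℚ)) : x⁻¹ 1 0 = -x 1 0 := by
  simp [Matrix.SpecialLinearGroup.coe_inv, Matrix.adjugate_fin_two]

theorem inv_11 (x : SL(2, ℚ)) : x⁻¹ 1 1 = x 0 0 := by
  simp [Matrix.SpecialLinearGroup.coe_inv, Matrix.adjugate_fin_two]

theorem one_00 : (1 : SL(2, ℚ)) 0 0 = 1 := by simp
theorem one_11 : (1 : SL(2, ℚ)) 1 1 = 1 := by simp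

/-- Upper unipotent. -/
def uMat (x : ℚ) : SL(2, ℚ) := mkSL 1 x 0 1 (by ring)

/-- Lower unipotent. -/
def lMat (y : ℚ) : SL(2, ℚ) := mkSL 1 0 y 1 (by ring)

/-- Diagonal element `diag(t, t⁻¹)`. -/
def hMat (t : ℚ) (ht : t ≠ 0) : SL(2, ℚ) := mkSL t 0 0 t⁻¹ (by field_simp; ring)

theorem uMat_mul_uMat (x y : ℚ) : uMat x * uMat y = uMat (x + y) := by
  apply sl_ext <;> simp [uMat, mul_entry, add_comm]

theorem lMat_mul_lMat (x y : ℚ) : lMat x * lMat y = lMat (x + y) := by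
  apply sl_ext <;> simp [lMat, mul_entry]

theorem uMat_zero : uMat 0 = 1 := by
  apply sl_ext <;> simp [uMat]

theorem uMat_inv (x : ℚ) : (uMat x)⁻¹ = uMat (-x) :=
  inv_eq_of_mul_eq_one_right (by rw [uMat_mul_uMat, add_neg_cancel, uMat_zero])

theorem lMat_inv (x : ℚ) : (lMat x)⁻¹ = lMat (-x) :=
  inv_eq_of_mul_eq_one_right (by
    rw [lMat_mul_lMat, add_neg_cancel]; apply sl_ext <;> simp [lMat])

/-- Conjugation by `diag(t, t⁻¹)`. -/
theorem hMat_conj (t : ℚ) (ht : t ≠ 0) (x : SL(2, ℚ)) :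
    (hMat t ht * x * (hMat t ht)⁻¹) 0 0 = x 0 0 ∧
    (hMat t ht * x * (hMat t ht)⁻¹) 0 1 = t ^ 2 * x 0 1 ∧
    (hMat t ht * x * (hMat t ht)⁻¹) 1 0 = x 1 0 / t ^ 2 ∧
    (hMat t ht * x * (hMat t ht)⁻¹) 1 1 = x 1 1 := by
  refine ⟨?_, ?_, ?_, ?_⟩ <;>
    · simp only [hMat, mul_entry, inv_00, inv_01, inv_10, inv_11, mkSL_00, mkSL_01, mkSL_10,
        mkSL_11]
      field_simp
      ring

theorem hMat_conj_uMat (t : ℚ) (ht : t ≠ 0) (x : ℚ) :
    hMat t ht * uMat x * (hMat t ht)⁻¹ = uMat (t ^ 2 * x) := by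
  obtain ⟨h00, h01, h10, h11⟩ := hMat_conj t ht (uMat x)
  apply sl_ext
  · rw [h00]; simp [uMat]
  · rw [h01]; simp [uMat]
  · rw [h10]; simp [uMat]
  · rw [h11]; simp [uMat]

theorem hMat_conj_lMat (t : ℚ) (ht : t ≠ 0) (x : ℚ) :
    hMat t ht * lMat x * (hMat t ht)⁻¹ = lMat (x / t ^ 2) := by
  obtain ⟨h00, h01, h10, h11⟩ := hMat_conj t ht (lMat x)
  apply sl_ext
  · rw [h00]; simp [lMat]
  · rw [h01]; simp [lMat]
  · rw [h10]; simp [lMat]
  · rw [h11]; simp [lMat]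

theorem hMat_mul_hMat (s t : ℚ) (hs : s ≠ 0) (ht : t ≠ 0) :
    hMat s hs * hMat t ht = hMat (s * t) (mul_ne_zero hs ht) := by
  apply sl_ext <;> simp [hMat, mul_entry, mul_comm]

theorem trace_conj (g x : SL(2, ℚ)) :
    (g * x * g⁻¹) 0 0 + (g * x * g⁻¹) 1 1 = x 0 0 + x 1 1 := by
  simp only [mul_entry, inv_00, inv_01, inv_10, inv_11]
  linear_combination (x 0 0 + x 1 1) * det_entries g

/-- The principal congruence subgroup of level `M` of `SL₂(ℤ[1/q])`. -/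
def GM (q M : ℕ) : Subgroup SL(2, ℚ) where
  carrier := {x | x 0 0 - 1 ∈ qMul q M ∧ x 0 1 ∈ qMul q M ∧
    x 1 0 ∈ qMul q M ∧ x 1 1 - 1 ∈ qMul q M}
  one_mem' := by simp [zero_mem]
  mul_mem' := by
    rintro x y ⟨a1, b1, c1, d1⟩ ⟨a2, b2, c2, d2⟩
    have h11 : ∀ {u v : ℚ}, u ∈ qMul q M → v ∈ qMul q M → u * v ∈ qMul q M :=
      fun hu hv => mul_one_mem_qMul hu (qMul_one_of_mem hv)
    refine ⟨?_, ?_, ?_, ?_⟩ <;> simp only [mul_entry]
    · rw [show x 0 0 * y 0 0 + x 0 1 * y 1 0 - 1 =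
        (x 0 0 - 1) * (y 0 0 - 1) + (x 0 0 - 1) + (y 0 0 - 1) + x 0 1 * y 1 0 by ring]
      exact add_mem (add_mem (add_mem (h11 a1 a2) a1) a2) (h11 b1 c2)
    · rw [show x 0 0 * y 0 1 + x 0 1 * y 1 1 =
        (x 0 0 - 1) * y 0 1 + y 0 1 + x 0 1 * (y 1 1 - 1) + x 0 1 by ring]
      exact add_mem (add_mem (add_mem (h11 a1 b2) b2) (h11 b1 d2)) b1
    · rw [show x 1 0 * y 0 0 + x 1 1 * y 1 0 =
        x 1 0 * (y 0 0 - 1) + x 1 0 + (x 1 1 - 1) * y 1 0 + y 1 0 by ring]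
      exact add_mem (add_mem (add_mem (h11 c1 a2) c1) (h11 d1 c2)) c2
    · rw [show x 1 0 * y 0 1 + x 1 1 * y 1 1 - 1 =
        x 1 0 * y 0 1 + (x 1 1 - 1) * (y 1 1 - 1) + (x 1 1 - 1) + (y 1 1 - 1) by ring]
      exact add_mem (add_mem (add_mem (h11 c1 b2) (h11 d1 d2)) d1) d2
  inv_mem' := by
    rintro x ⟨a1, b1, c1, d1⟩
    exact ⟨by rw [inv_00]; exact d1, by rw [inv_01]; exact neg_mem b1,
      by rw [inv_10]; exact neg_mem c1, by rw [inv_11]; exact a1⟩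

variable {q M M' : ℕ}

theorem mem_GM_iff {x : SL(2, ℚ)} : x ∈ GM q M ↔ x 0 0 - 1 ∈ qMul q M ∧ x 0 1 ∈ qMul q M ∧
    x 1 0 ∈ qMul q M ∧ x 1 1 - 1 ∈ qMul q M :=
  Iff.rfl

theorem GM_mono (h : M ∣ M') : GM q M' ≤ GM q M :=
  fun _ ⟨a, b, c, d⟩ => ⟨qMul_mono h a, qMul_mono h b, qMul_mono h c, qMul_mono h d⟩

theorem entries_qMul_one_of_GM {x : SL(2, ℚ)} (hx : x ∈ GM q M) (i j : Fin 2) :
    x i j ∈ qMul q 1 := by
  obtain ⟨a, b, c, d⟩ := hx
  fin_cases i <;> fin_cases j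
  · simpa using add_mem (qMul_one_of_mem a) one_mem_qMul_one
  · exact qMul_one_of_mem b
  · exact qMul_one_of_mem c
  · simpa using add_mem (qMul_one_of_mem d) one_mem_qMul_one

theorem uMat_mem_GM {x : ℚ} (hx : x ∈ qMul q M) : uMat x ∈ GM q M := by
  simp [mem_GM_iff, uMat, hx, zero_mem]

theorem lMat_mem_GM {x : ℚ} (hx : x ∈ qMul q M) : lMat x ∈ GM q M := by
  simp [mem_GM_iff, lMat, hx, zero_mem]

theorem hMat_conj_mem_GM (hq : q ≠ 0) (i : ℤ) {x : SL(2, ℚ)} (hx : x ∈ GM q M)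
    (h : (q : ℚ) ^ i ≠ 0) : hMat ((q : ℚ) ^ i) h * x * (hMat ((q : ℚ) ^ i) h)⁻¹ ∈ GM q M := by
  obtain ⟨a, b, c, d⟩ := hx
  obtain ⟨h00, h01, h10, h11⟩ := hMat_conj _ h x
  have hu : ∀ j : ℤ, (q : ℚ) ^ j ∈ qMul q 1 := qpow_zpow_mem_qMul_one hq
  refine ⟨by rw [h00]; exact a, ?_, ?_, by rw [h11]; exact d⟩
  · rw [h01, pow_two]
    exact one_mul_mem_qMul (mul_mem_qMul_one (hu i) (hu i)) b
  · rw [h10, pow_two, div_eq_mul_inv, mul_inv, ← _root_.zpow_neg]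
    exact mul_one_mem_qMul c (mul_mem_qMul_one (hu _) (hu _))

/-- Conjugation by a rational matrix maps a small congruence subgroup into a given one. -/
theorem exists_conj_mem_GM (hq : q.Prime) (g : SL(2, ℚ)) :
    ∃ D : ℕ, 0 < D ∧ D.Coprime q ∧
      ∀ (M : ℕ) (x : SL(2, ℚ)), x ∈ GM q (M * D) → g * x * g⁻¹ ∈ GM q M := by
  choose D hD0 hDq hD using fun i j => exists_coprime_mul_mem_qMul_one hq (g i j)
  obtain ⟨E, hE0, hEq, hE⟩ : ∃ E : ℕ, 0 < E ∧ E.Coprime q ∧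
      ∀ i j, (E : ℚ) * g i j ∈ qMul q 1 := by
    refine ⟨∏ ij : Fin 2 × Fin 2, D ij.1 ij.2, Finset.prod_pos fun ij _ => hD0 _ _,
      Nat.Coprime.prod_left fun ij _ => hDq _ _, fun i j => ?_⟩
    rw [← Finset.mul_prod_erase _ _ (Finset.mem_univ (i, j))]
    push_cast
    rw [mul_right_comm, ← Nat.cast_prod]
    exact mul_mem_qMul_one (hD i j) (natCast_mem_qMul_one _)
  refine ⟨E * E, by positivity, hEq.mul_left hEq, fun M x hx => ?_⟩
  obtain ⟨a, b, c, d⟩ := hx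
  have key : ∀ {e : ℚ}, e ∈ qMul q (M * (E * E)) → ∀ i j k l, g i j * g k l * e ∈ qMul q M := by
    intro e he i j k l
    have h1 := div_natCast_mem_qMul (q := q) (Nat.mul_pos hE0 hE0).ne'
      (one_mul_mem_qMul (mul_mem_qMul_one (hE i j) (hE k l)) he)
    have hEQ : (E : ℚ) ≠ 0 := by exact_mod_cast hE0.ne'
    convert h1 using 1
    push_cast
    field_simp
  have hg := det_entries g
  refine ⟨?_, ?_, ?_, ?_⟩ <;> simp only [mul_entry, inv_00, inv_01, inv_10, inv_11]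
  · have h1 := sub_mem (add_mem (key a 0 0 1 1) (key c 0 1 1 1))
      (add_mem (key b 0 0 1 0) (key d 0 1 1 0))
    convert h1 using 1
    linear_combination hg
  · have h1 := sub_mem (add_mem (key b 0 0 0 0) (key d 0 1 0 0))
      (add_mem (key a 0 0 0 1) (key c 0 1 0 1))
    convert h1 using 1
    ring
  · have h1 := sub_mem (add_mem (key a 1 0 1 1) (key c 1 1 1 1))
      (add_mem (key b 1 0 1 0) (key d 1 1 1 0))
    convert h1 using 1
    ring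
  · have h1 := sub_mem (add_mem (key b 1 0 0 0) (key d 1 1 0 0))
      (add_mem (key a 1 0 0 1) (key c 1 1 0 1))
    convert h1 using 1
    linear_combination hg

end FermatLib.Modular.Ihara
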